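/-
Programme TW (S56), brick B5 / (CE) CE-lite, helper46.

`Descent`: generic semilinear descent for lattices of functions.

Setting: `Ω` an ultrametric normed field, `X` a finite set, a family `φ g` (`g : G`) of ring
automorphisms of `Ω` together with surjections `act g : X → X`; a function `F : X → Ω` is
*equivariant* if `F (act g x) = φ g (F x)`.  `O₀` is the ring of integral fixed elements
(`a ∈ O₀ ↔ ‖a‖ ≤ 1 ∧ ∀ g, φ g a = a`), assumed to be a PID, and `π ∈ O₀` has `0 < ‖π‖ < 1`.

* `linearIndependent_of_equivariant` (Artin's lemma): equivariant functions which are linearly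
  independent over `O₀` are linearly independent over `Ω`;
* `exists_descent_basis`: a finitely generated `O₀`-lattice `Λ₀` of equivariant functions spanning
  `X → Ω` over `Ω` has an `Ω`-basis `e` of `X → Ω` with `F ∈ Λ₀ ↔ all coordinates of F lie in O₀`;
* `repr_fixed_of_equivariant`: the coordinates of an equivariant function are fixed.
-/
import Mathlib

set_option autoImplicit false
set_option linter.unusedSectionVars false

namespace Fermat.Agent.TW.CE46.Descent

open Finset

variable {Ω : Type*} [NormedField Ω] [IsUltrametricDist Ω]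
variable {X : Type*} {G : Type*} (φ : G → Ω ≃+* Ω) (act : G → X → X)

/-- Equivariant functions. -/
def IsEqv (F : X → Ω) : Prop := ∀ g x, F (act g x) = φ g (F x)

/-- Scaling finitely many elements into the unit ball by a power of `π`. -/
theorem exists_pow_mul_norm_le_one {π : Ω} (hπ1 : ‖π‖ < 1) {ι : Type*} (s : Finset ι)
    (c : ι → Ω) : ∃ k : ℕ, ∀ i ∈ s, ‖π ^ k * c i‖ ≤ 1 := by
  classical
  have hmono : ∀ (a : Ω) (k k' : ℕ), k ≤ k' → ‖π ^ k * a‖ ≤ 1 → ‖π ^ k' * a‖ ≤ 1 := by
    intro a k k' hkk' h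
    obtain ⟨j, rfl⟩ := Nat.exists_eq_add_of_le hkk'
    rw [pow_add, mul_comm (π ^ k) (π ^ j), mul_assoc, norm_mul, norm_pow]
    calc ‖π‖ ^ j * ‖π ^ k * a‖ ≤ 1 * 1 :=
          mul_le_mul (pow_le_one₀ (norm_nonneg _) hπ1.le) h (norm_nonneg _) zero_le_one
      _ = 1 := one_mul 1
  have hone : ∀ a : Ω, ∃ k : ℕ, ‖π ^ k * a‖ ≤ 1 := by
    intro a
    by_cases ha : a = 0
    · exact ⟨0, by simp [ha]⟩
    · have hpos : 0 < ‖a‖⁻¹ := inv_pos.mpr (norm_pos_iff.mpr ha)
      obtain ⟨k, hk⟩ := exists_pow_lt_of_lt_one hpos hπ1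
      refine ⟨k, ?_⟩
      rw [norm_mul, norm_pow]
      have := mul_le_mul_of_nonneg_right hk.le (norm_nonneg a)
      rwa [inv_mul_cancel₀ (norm_ne_zero_iff.mpr ha)] at this
  induction s using Finset.induction_on with
  | empty => exact ⟨0, by simp⟩
  | insert a s _ ih =>
    obtain ⟨k₁, hk₁⟩ := ih
    obtain ⟨k₂, hk₂⟩ := hone (c a)
    refine ⟨max k₁ k₂, fun i hi => ?_⟩
    rcases Finset.mem_insert.mp hi with rfl | hi
    · exact hmono _ _ _ (le_max_right _ _) hk₂
    · exact hmono _ _ _ (le_max_left _ _) (hk₁ i hi)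

variable {φ act}

/-- **Artin's lemma.**  Equivariant functions which are linearly independent over the ring `O₀` of
integral fixed elements are linearly independent over `Ω`. -/
theorem linearIndependent_of_equivariant (hact : ∀ g, Function.Surjective (act g))
    (O₀ : Subring Ω) (hO₀ : ∀ a : Ω, a ∈ O₀ ↔ ‖a‖ ≤ 1 ∧ ∀ g, φ g a = a)
    {π : Ω} (hπ0 : π ≠ 0) (hπ1 : ‖π‖ < 1) (hπfix : ∀ g, φ g π = π)
    {ι : Type*} (e : ι → X → Ω) (he : ∀ i, IsEqv φ act (e i))
    (hli : LinearIndependent O₀ e) : LinearIndependent Ω e := by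
  classical
  rw [linearIndependent_iff']
  intro s
  induction s using Finset.induction_on with
  | empty => intro c _ i hi; simp at hi
  | insert a s has ih =>
    intro c hc i hi
    have hca : c a = 0 := by
      by_contra hne
      let d : ι → Ω := fun i => (c a)⁻¹ * c i
      have hd : ∑ i ∈ insert a s, d i • e i = 0 := by
        have : ∑ i ∈ insert a s, d i • e i = (c a)⁻¹ • ∑ i ∈ insert a s, c i • e i := by
          rw [Finset.smul_sum]
          exact Finset.sum_congr rfl (fun i _ => by simp [d, mul_smul])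
        rw [this, hc, smul_zero]
      have hda : d a = 1 := inv_mul_cancel₀ hne
      have hg : ∀ g, ∑ i ∈ insert a s, (φ g (d i)) • e i = 0 := by
        intro g
        funext y
        obtain ⟨x, rfl⟩ := hact g y
        have h1 := congrFun hd x
        simp only [Finset.sum_apply, Pi.smul_apply, smul_eq_mul, Pi.zero_apply] at h1 ⊢
        have h2 := congrArg (φ g) h1
        rw [map_sum, map_zero] at h2
        rw [← h2]
        refine Finset.sum_congr rfl (fun i _ => ?_)
        rw [map_mul (φ g) (d i) (e i x), he i g x]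
      have hsub : ∀ g, ∑ i ∈ s, (φ g (d i) - d i) • e i = 0 := by
        intro g
        have h1 := hg g
        have h2 := hd
        rw [Finset.sum_insert has] at h1 h2
        rw [hda, map_one] at h1
        rw [hda] at h2
        have h3 : ∑ i ∈ s, (φ g (d i)) • e i = ∑ i ∈ s, d i • e i := by
          have e1 := eq_neg_of_add_eq_zero_right h1
          have e2 := eq_neg_of_add_eq_zero_right h2
          rw [e1, e2]
        simp only [sub_smul, Finset.sum_sub_distrib, h3, sub_self]
      have hfix : ∀ g, ∀ i ∈ insert a s, φ g (d i) = d i := by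
        intro g i hi
        rcases Finset.mem_insert.mp hi with rfl | hi
        · rw [hda, map_one]
        · exact sub_eq_zero.mp (ih _ (hsub g) i hi)
      obtain ⟨k, hk⟩ := exists_pow_mul_norm_le_one hπ1 (insert a s) d
      have hO : ∀ i ∈ insert a s, π ^ k * d i ∈ O₀ := by
        intro i hi
        rw [hO₀]
        refine ⟨hk i hi, fun g => ?_⟩
        rw [map_mul, map_pow, hπfix, hfix g i hi]
      let c' : ι → O₀ := fun i => if h : i ∈ insert a s then ⟨π ^ k * d i, hO i h⟩ else 0
      have hrel : ∑ i ∈ insert a s, c' i • e i = 0 := by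
        have : ∑ i ∈ insert a s, c' i • e i = π ^ k • ∑ i ∈ insert a s, d i • e i := by
          rw [Finset.smul_sum]
          refine Finset.sum_congr rfl (fun i hi => ?_)
          simp only [c', dif_pos hi]
          rw [Subring.smul_def, mul_smul]
        rw [this, hd, smul_zero]
      have h0 := (linearIndependent_iff'.mp hli) (insert a s) c' hrel a (Finset.mem_insert_self a s)
      simp only [c', dif_pos (Finset.mem_insert_self a s)] at h0
      have h1 : π ^ k * d a = 0 := congrArg Subtype.val h0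
      rw [hda, mul_one] at h1
      exact hπ0 (pow_eq_zero_iff (n := k) (by
        rintro rfl
        simp at h1) |>.mp h1)
    rcases Finset.mem_insert.mp hi with rfl | hi'
    · exact hca
    · rw [Finset.sum_insert has, hca, zero_smul, zero_add] at hc
      exact ih c hc i hi'

/-- The coordinates of an equivariant function in a basis of equivariant functions are fixed. -/
theorem repr_fixed_of_equivariant [Fintype X] (hact : ∀ g, Function.Surjective (act g))
    {ι : Type*} [Fintype ι] (e : Module.Basis ι Ω (X → Ω)) (he : ∀ i, IsEqv φ act (e i))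
    {F : X → Ω} (hF : IsEqv φ act F) (g : G) (i : ι) : φ g (e.repr F i) = e.repr F i := by
  classical
  -- `∑ φ g (a_i) e_i = F`
  have h1 : ∑ i, φ g (e.repr F i) • e i = F := by
    funext y
    obtain ⟨x, rfl⟩ := hact g y
    have h2 := congrFun (e.sum_repr F) x
    simp only [Finset.sum_apply, Pi.smul_apply, smul_eq_mul] at h2 ⊢
    rw [hF g x, ← h2, map_sum]
    refine Finset.sum_congr rfl (fun i _ => ?_)
    rw [map_mul (φ g), he i g x]
  have h3 := congrArg (fun F' => e.repr F' i) h1
  simp only [map_sum, map_smul, Module.Basis.repr_self, Finsupp.smul_single, smul_eq_mul, mul_one,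
    Finsupp.coe_finsetSum, Finset.sum_apply, Finsupp.single_apply, Finset.sum_ite_eq',
    Finset.mem_univ, if_true] at h3
  exact h3

/-- **Descent basis.**  Let `Λ₀` be a finitely generated `O₀`-module of equivariant functions
spanning `X → Ω` over `Ω`, with `O₀` a PID.  Then there is an `Ω`-basis `e` of `X → Ω` contained in
`Λ₀` such that `F ∈ Λ₀` iff all the coordinates of `F` lie in `O₀`. -/
theorem exists_descent_basis [Fintype X] (hact : ∀ g, Function.Surjective (act g))
    (O₀ : Subring Ω) [IsPrincipalIdealRing O₀]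
    (hO₀ : ∀ a : Ω, a ∈ O₀ ↔ ‖a‖ ≤ 1 ∧ ∀ g, φ g a = a)
    {π : Ω} (hπ0 : π ≠ 0) (hπ1 : ‖π‖ < 1) (hπfix : ∀ g, φ g π = π)
    (Λ₀ : Submodule O₀ (X → Ω)) (hfg : Λ₀.FG) (heqv : ∀ F ∈ Λ₀, IsEqv φ act F)
    (hspan : Submodule.span Ω (Λ₀ : Set (X → Ω)) = ⊤) :
    ∃ (n : ℕ) (e : Module.Basis (Fin n) Ω (X → Ω)),
      (∀ i, e i ∈ Λ₀) ∧ ∀ F : X → Ω, F ∈ Λ₀ ↔ ∀ i, e.repr F i ∈ O₀ := by
  classical
  have : Module.Finite O₀ Λ₀ := Module.Finite.iff_fg.mpr hfg
  have : Module.IsTorsionFree O₀ Λ₀ := by
    refine ⟨fun r hr => ?_⟩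
    intro F₁ F₂ h
    have hr0 : (r : Ω) ≠ 0 := by
      intro h0
      exact hr.ne_zero (Subtype.ext h0)
    apply Subtype.ext
    funext x
    have h1 : (r : Ω) * (F₁ : X → Ω) x = (r : Ω) * (F₂ : X → Ω) x := by
      have := congrArg (fun F' : Λ₀ => (F' : X → Ω) x) h
      simpa [Subring.smul_def] using this
    exact mul_left_cancel₀ hr0 h1
  have : Module.Free O₀ Λ₀ := Module.free_of_finite_type_torsion_free'
  let b := Module.finBasis O₀ Λ₀
  set n := Module.finrank O₀ Λ₀ with hn
  let e₀ : Fin n → X → Ω := fun i => (b i : X → Ω)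
  have hli₀ : LinearIndependent O₀ e₀ :=
    b.linearIndependent.map' Λ₀.subtype (Submodule.ker_subtype Λ₀)
  have hli : LinearIndependent Ω e₀ :=
    linearIndependent_of_equivariant hact O₀ hO₀ hπ0 hπ1 hπfix e₀ (fun i => heqv _ (b i).2) hli₀
  -- every element of `Λ₀` is an `O₀`-combination of the `e₀ i`
  have hcomb : ∀ F : Λ₀, (F : X → Ω) = ∑ i, ((b.repr F i : O₀) : Ω) • e₀ i := by
    intro F
    have h1 := congrArg (fun F' : Λ₀ => (F' : X → Ω)) (b.sum_repr F)
    simp only [Submodule.coe_sum, Submodule.coe_smul] at h1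
    rw [← h1]
    refine Finset.sum_congr rfl (fun i _ => ?_)
    rw [Subring.smul_def]
  have hsp : ⊤ ≤ Submodule.span Ω (Set.range e₀) := by
    rw [← hspan]
    apply Submodule.span_le.mpr
    intro F hF
    have h1 := hcomb ⟨F, hF⟩
    simp only at h1
    rw [SetLike.mem_coe, h1]
    exact Submodule.sum_mem _ (fun i _ => Submodule.smul_mem _ _ (Submodule.subset_span ⟨i, rfl⟩))
  let e : Module.Basis (Fin n) Ω (X → Ω) := Module.Basis.mk hli hsp
  have hei : ∀ i, e i = e₀ i := fun i => Module.Basis.mk_apply hli hsp i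
  refine ⟨n, e, fun i => by rw [hei]; exact (b i).2, fun F => ⟨fun hF i => ?_, fun hF => ?_⟩⟩
  · have h1 := hcomb ⟨F, hF⟩
    simp only at h1
    have h2 : e.repr F i = ((b.repr ⟨F, hF⟩ i : O₀) : Ω) := by
      conv_lhs => rw [h1]
      simp only [map_sum, map_smul, ← hei, Module.Basis.repr_self, Finsupp.smul_single, smul_eq_mul,
        mul_one, Finsupp.coe_finsetSum, Finset.sum_apply, Finsupp.single_apply,
        Finset.sum_ite_eq', Finset.mem_univ, if_true]
    rw [h2]
    exact (b.repr ⟨F, hF⟩ i).2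
  · have h1 : F = ∑ i, (⟨e.repr F i, hF i⟩ : O₀) • e₀ i := by
      conv_lhs => rw [← e.sum_repr F]
      refine Finset.sum_congr rfl (fun i _ => ?_)
      rw [Subring.smul_def, hei]
    rw [h1]
    exact Submodule.sum_mem _ (fun i _ => Submodule.smul_mem _ _ (b i).2)

end Fermat.Agent.TW.CE46.Descent
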