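/-
Programme TW (S56), brick B5 / (CE) CE-lite, helper46.

`F2`: the abstract form of fact F2 of the B5 masterplan.

`N ≤ M` submonoids of the points `WithConv (H →ₐ[R] Ω)` of a finite cocommutative Hopf algebra killed
by the odd prime `p`, stable under a set `I` of `R`-automorphisms of `Ω` ("inertia"), with `I` acting
trivially on `M/N`.  Let `O₀` be the ring of `I`-fixed integral elements, assumed to be a PID and
unramified (`a ∈ O₀`, `‖a‖ < 1` ⟹ `a ∈ p O₀`).  Then `Red⁰ ∩ M ⊆ N`.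

Proof (no quotient group schemes): functions on `M`; `Λ₀` = the `O₀`-span of the evaluations
`m ↦ m h`; descent basis (`Descent.exists_descent_basis`); `A₀` = the `N`-invariant elements of `Λ₀`;
translation `T_x` by `x ∈ Red⁰ ∩ M` preserves `A₀` and `T_x - 1` is divisible by `p` on `A₀`; the
uniqueness lemma `H1` in the ring `End(A₀)` gives `T_x = 1` on `A₀`; the indicator function of `N`
(scaled) lies in `A₀`, hence `x ∈ N`.
-/
import Mathlib
import Fermat.Agent.TW.CE46.Points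
import Fermat.Agent.TW.CE46.Descent

set_option autoImplicit false
set_option linter.unusedSectionVars false

namespace Fermat.Agent.TW.CE46.F2

open WithConv Coalgebra
open Fermat.Agent.TW.CE46.Points Fermat.Agent.TW.CE46.Descent

variable {R H Ω : Type*} [CommRing R] [CommRing H] [HopfAlgebra R H] [Coalgebra.IsCocomm R H]
  [NormedField Ω] [IsUltrametricDist Ω] [Algebra R Ω] [Module.Finite R H]

instance finite_pts : Finite (WithConv (H →ₐ[R] Ω)) :=
  Finite.of_equiv _ (WithConv.equiv (H →ₐ[R] Ω)).symm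

/-- The evaluation function of `h` on a set of points. -/
def ev (M : Submonoid (WithConv (H →ₐ[R] Ω))) (h : H) : M → Ω := fun m => m.1 h

theorem ev_add (M : Submonoid (WithConv (H →ₐ[R] Ω))) (h h' : H) :
    ev M (h + h') = ev M h + ev M h' := by
  funext m; exact map_add m.1.ofConv h h'

theorem ev_zero (M : Submonoid (WithConv (H →ₐ[R] Ω))) : ev M (0 : H) = 0 := by
  funext m; exact map_zero m.1.ofConv

theorem ev_smul (M : Submonoid (WithConv (H →ₐ[R] Ω))) (r : R) (h : H) :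
    ev M (r • h) = algebraMap R Ω r • ev M h := by
  funext m
  show m.1.ofConv (r • h) = algebraMap R Ω r * m.1.ofConv h
  rw [map_smul, Algebra.smul_def]

/-- **Dedekind**: the evaluations span all functions on a (finite) set of points. -/
theorem span_ev_eq_top (M : Submonoid (WithConv (H →ₐ[R] Ω))) :
    Submodule.span Ω (Set.range (ev M)) = ⊤ := by
  classical
  have : Fintype M := Fintype.ofFinite M
  by_contra hne
  obtain ⟨f, hf0, hle⟩ := Submodule.exists_le_ker_of_lt_top _ (lt_top_iff_ne_top.mpr hne)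
  apply hf0
  -- the coefficients of `f`
  let c : M → Ω := fun m => f (fun j => if m = j then 1 else 0)
  have hf : ∀ F : M → Ω, f F = ∑ m, F m * c m := by
    intro F
    rw [LinearMap.pi_apply_eq_sum_univ f F]
    rfl
  -- linear independence of the points
  let ι : M → (H →* Ω) := fun m => (m.1.ofConv : H →ₐ[R] Ω)
  have hι : Function.Injective ι := by
    intro m m' h
    apply Subtype.ext
    apply WithConv.ext
    apply AlgHom.ext
    intro x
    exact DFunLike.congr_fun h x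
  have hli := (linearIndependent_monoidHom H Ω).comp ι hι
  have hc : ∀ m, c m = 0 := by
    refine Fintype.linearIndependent_iff.mp hli c ?_
    funext h
    have h1 : f (ev M h) = 0 := LinearMap.mem_ker.mp (hle (Submodule.subset_span ⟨h, rfl⟩))
    rw [hf] at h1
    simp only [Finset.sum_apply, Pi.smul_apply, smul_eq_mul, Function.comp_apply, Pi.zero_apply]
    rw [← h1]
    refine Finset.sum_congr rfl (fun m _ => ?_)
    rw [mul_comm]
    rfl
  apply LinearMap.ext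
  intro F
  rw [hf, LinearMap.zero_apply]
  exact Finset.sum_eq_zero (fun m _ => by rw [hc m, mul_zero])

/-- The data and hypotheses of F2. -/
structure Ctx (R H Ω : Type*) [CommRing R] [CommRing H] [HopfAlgebra R H] [Coalgebra.IsCocomm R H]
    [NormedField Ω] [IsUltrametricDist Ω] [Algebra R Ω] [Module.Finite R H] (p : ℕ) where
  hp : p.Prime
  hp2 : p ≠ 2
  hp0 : (p : Ω) ≠ 0
  hpn : ‖(p : Ω)‖ < 1
  hR : ∀ r : R, ‖algebraMap R Ω r‖ ≤ 1
  /-- "inertia" -/
  I : Set (Ω ≃ₐ[R] Ω)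
  hIinv : ∀ σ ∈ I, σ⁻¹ ∈ I
  /-- the ring of integral fixed elements -/
  O₀ : Subring Ω
  hO₀ : ∀ a : Ω, a ∈ O₀ ↔ ‖a‖ ≤ 1 ∧ ∀ σ ∈ I, σ a = a
  pid : IsPrincipalIdealRing O₀
  hunr : ∀ a ∈ O₀, ‖a‖ < 1 → ∃ b ∈ O₀, a = (p : Ω) * b
  hkill : ∀ x : WithConv (H →ₐ[R] Ω), x ^ p = 1
  M : Submonoid (WithConv (H →ₐ[R] Ω))
  N : Submonoid (WithConv (H →ₐ[R] Ω))
  hNM : N ≤ M
  hNI : ∀ σ ∈ I, ∀ x ∈ N, act σ x ∈ N
  hMN : ∀ σ ∈ I, ∀ x ∈ M, ∃ n ∈ N, act σ x = x * n

namespace Ctx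

variable {p : ℕ} (C : Ctx R H Ω p)

/-- The index type of the automorphisms. -/
abbrev G : Type _ := {σ : Ω ≃ₐ[R] Ω // σ ∈ C.I}

/-- The ring automorphism attached to `g`. -/
def φ (g : C.G) : Ω ≃+* Ω := g.1.toRingEquiv

@[simp] theorem φ_apply (g : C.G) (a : Ω) : C.φ g a = g.1 a := rfl

theorem act_mem (g : C.G) (m : C.M) : act g.1 m.1 ∈ C.M := by
  obtain ⟨n, hn, h⟩ := C.hMN g.1 g.2 m.1 m.2
  rw [h]
  exact C.M.mul_mem m.2 (C.hNM hn)

/-- The action on `M`. -/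
noncomputable def actM (g : C.G) (m : C.M) : C.M := ⟨act g.1 m.1, C.act_mem g m⟩

theorem actM_surjective (g : C.G) : Function.Surjective (C.actM g) := by
  intro m
  refine ⟨C.actM ⟨g.1⁻¹, C.hIinv g.1 g.2⟩ m, ?_⟩
  apply Subtype.ext
  show act g.1 (act g.1⁻¹ m.1) = m.1
  rw [← act_mul', mul_inv_cancel, act_one']

theorem actM_mul (g : C.G) (m m' : C.M) : C.actM g (m * m') = C.actM g m * C.actM g m' := by
  apply Subtype.ext
  exact map_mul (act g.1) m.1 m'.1

theorem algebraMap_mem (r : R) : algebraMap R Ω r ∈ C.O₀ := by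
  rw [C.hO₀]
  exact ⟨C.hR r, fun σ _ => σ.commutes r⟩

theorem p_mem : (p : Ω) ∈ C.O₀ := by
  have := C.algebraMap_mem (p : R)
  rwa [map_natCast] at this

theorem norm_le_of_mem {a : Ω} (ha : a ∈ C.O₀) : ‖a‖ ≤ 1 := ((C.hO₀ a).mp ha).1

theorem fixed_of_mem {a : Ω} (ha : a ∈ C.O₀) (g : C.G) : g.1 a = a := ((C.hO₀ a).mp ha).2 g.1 g.2

/-- The lattice spanned over `O₀` by the evaluations. -/
def Λ₀ : Submodule C.O₀ (C.M → Ω) := Submodule.span C.O₀ (Set.range (ev C.M))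

theorem ev_mem (h : H) : ev C.M h ∈ C.Λ₀ := Submodule.subset_span ⟨h, rfl⟩

theorem Λ₀_fg : C.Λ₀.FG := by
  classical
  obtain ⟨s, hs⟩ := (Module.Finite.fg_top : (⊤ : Submodule R H).FG)
  refine ⟨s.image (ev C.M), ?_⟩
  apply le_antisymm
  · exact Submodule.span_mono (by
      intro F hF
      rw [Finset.coe_image] at hF
      obtain ⟨h, _, rfl⟩ := hF
      exact ⟨h, rfl⟩)
  · apply Submodule.span_le.mpr
    rintro F ⟨h, rfl⟩
    have hh : h ∈ Submodule.span R (s : Set H) := by rw [hs]; trivial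
    refine Submodule.span_induction (p := fun h _ => ev C.M h ∈
      Submodule.span C.O₀ ((s.image (ev C.M) : Finset (C.M → Ω)) : Set (C.M → Ω))) ?_ ?_ ?_ ?_ hh
    · intro h' hh'
      exact Submodule.subset_span (by
        rw [Finset.coe_image]; exact ⟨h', hh', rfl⟩)
    · rw [ev_zero]; exact Submodule.zero_mem _
    · intro a b _ _ ha hb
      rw [ev_add]; exact Submodule.add_mem _ ha hb
    · intro r a _ ha
      rw [ev_smul]
      have : algebraMap R Ω r • ev C.M a = (⟨algebraMap R Ω r, C.algebraMap_mem r⟩ : C.O₀) • ev C.M a :=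
        rfl
      rw [this]
      exact Submodule.smul_mem _ _ ha

theorem Λ₀_eqv : ∀ F ∈ C.Λ₀, IsEqv C.φ C.actM F := by
  intro F hF
  refine Submodule.span_induction (p := fun F _ => IsEqv C.φ C.actM F) ?_ ?_ ?_ ?_ hF
  · rintro F ⟨h, rfl⟩ g m
    rfl
  · intro g m
    simp
  · intro F₁ F₂ _ _ h₁ h₂ g m
    simp only [Pi.add_apply, map_add, h₁ g m, h₂ g m]
  · intro a F _ hF g m
    show (a : Ω) * F (C.actM g m) = C.φ g ((a : Ω) * F m)
    rw [map_mul, hF g m]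
    congr 1
    exact (C.fixed_of_mem a.2 g).symm

theorem Λ₀_span : Submodule.span Ω (C.Λ₀ : Set (C.M → Ω)) = ⊤ := by
  apply top_le_iff.mp
  rw [← span_ev_eq_top C.M]
  exact Submodule.span_mono (fun F hF => Submodule.subset_span hF)

theorem exists_basis : ∃ (n : ℕ) (e : Module.Basis (Fin n) Ω (C.M → Ω)),
    (∀ i, e i ∈ C.Λ₀) ∧ ∀ F : C.M → Ω, F ∈ C.Λ₀ ↔ ∀ i, e.repr F i ∈ C.O₀ := by
  classical
  have := C.pid
  have : Fintype C.M := Fintype.ofFinite C.M
  exact exists_descent_basis (φ := C.φ) (act := C.actM) C.actM_surjective C.O₀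
    (fun a => by
      rw [C.hO₀]
      exact ⟨fun h => ⟨h.1, fun g => h.2 g.1 g.2⟩, fun h => ⟨h.1, fun σ hσ => h.2 ⟨σ, hσ⟩⟩⟩)
    C.hp0 C.hpn (fun g => by rw [φ_apply]; exact map_natCast g.1 p) C.Λ₀ C.Λ₀_fg C.Λ₀_eqv C.Λ₀_span

/-- The rank. -/
noncomputable def n : ℕ := Classical.choose C.exists_basis

/-- The descent basis. -/
noncomputable def e : Module.Basis (Fin C.n) Ω (C.M → Ω) :=
  Classical.choose (Classical.choose_spec C.exists_basis)

theorem e_mem (i : Fin C.n) : C.e i ∈ C.Λ₀ :=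
  (Classical.choose_spec (Classical.choose_spec C.exists_basis)).1 i

theorem mem_Λ₀_iff (F : C.M → Ω) : F ∈ C.Λ₀ ↔ ∀ i, C.e.repr F i ∈ C.O₀ :=
  (Classical.choose_spec (Classical.choose_spec C.exists_basis)).2 F

/-- Coordinates of norm `≤ 1`: the `𝒪`-span of `Λ₀`. -/
def Lam (F : C.M → Ω) : Prop := ∀ i, ‖C.e.repr F i‖ ≤ 1

/-- Coordinates of norm `< 1`. -/
def LamLt (F : C.M → Ω) : Prop := ∀ i, ‖C.e.repr F i‖ < 1

theorem lam_of_mem {F : C.M → Ω} (hF : F ∈ C.Λ₀) : C.Lam F := fun i =>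
  C.norm_le_of_mem ((C.mem_Λ₀_iff F).mp hF i)

theorem Lam.add {F F' : C.M → Ω} (h : C.Lam F) (h' : C.Lam F') : C.Lam (F + F') := fun i => by
  rw [map_add, Finsupp.add_apply]
  exact (IsUltrametricDist.norm_add_le_max _ _).trans (max_le (h i) (h' i))

theorem lam_zero : C.Lam 0 := fun i => by simp

theorem Lam.smul {F : C.M → Ω} (h : C.Lam F) {a : Ω} (ha : ‖a‖ ≤ 1) : C.Lam (a • F) := fun i => by
  rw [map_smul, Finsupp.smul_apply, smul_eq_mul, norm_mul]
  exact mul_le_one₀ ha (norm_nonneg _) (h i)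

theorem Lam.smul_lt {F : C.M → Ω} (h : C.Lam F) {a : Ω} (ha : ‖a‖ < 1) : C.LamLt (a • F) :=
  fun i => by
    rw [map_smul, Finsupp.smul_apply, smul_eq_mul, norm_mul]
    calc ‖a‖ * ‖C.e.repr F i‖ ≤ ‖a‖ * 1 := mul_le_mul_of_nonneg_left (h i) (norm_nonneg _)
      _ < 1 := by rw [mul_one]; exact ha

theorem lam_sum {ι : Type*} (s : Finset ι) (F : ι → C.M → Ω) (h : ∀ i ∈ s, C.Lam (F i)) :
    C.Lam (∑ i ∈ s, F i) := by
  classical
  induction s using Finset.induction_on with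
  | empty => simpa using C.lam_zero
  | insert a s has ih =>
    rw [Finset.sum_insert has]
    exact (h a (Finset.mem_insert_self a s)).add C (ih (fun i hi => h i (Finset.mem_insert_of_mem hi)))

theorem LamLt.add {F F' : C.M → Ω} (h : C.LamLt F) (h' : C.LamLt F') : C.LamLt (F + F') :=
  fun i => by
    rw [map_add, Finsupp.add_apply]
    exact lt_of_le_of_lt (IsUltrametricDist.norm_add_le_max _ _) (max_lt (h i) (h' i))

theorem lamLt_zero : C.LamLt 0 := fun i => by simp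

theorem LamLt.smul {F : C.M → Ω} (h : C.LamLt F) {a : Ω} (ha : ‖a‖ ≤ 1) : C.LamLt (a • F) :=
  fun i => by
    rw [map_smul, Finsupp.smul_apply, smul_eq_mul, norm_mul]
    calc ‖a‖ * ‖C.e.repr F i‖ ≤ 1 * ‖C.e.repr F i‖ :=
          mul_le_mul_of_nonneg_right ha (norm_nonneg _)
      _ < 1 := by rw [one_mul]; exact h i

theorem lamLt_sum {ι : Type*} (s : Finset ι) (F : ι → C.M → Ω) (h : ∀ i ∈ s, C.LamLt (F i)) :
    C.LamLt (∑ i ∈ s, F i) := by
  classical
  induction s using Finset.induction_on with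
  | empty => simpa using C.lamLt_zero
  | insert a s has ih =>
    rw [Finset.sum_insert has]
    exact (h a (Finset.mem_insert_self a s)).add C
      (ih (fun i hi => h i (Finset.mem_insert_of_mem hi)))

/-- Translation by `y ∈ M` on functions. -/
noncomputable def tr (y : C.M) : (C.M → Ω) →ₗ[Ω] (C.M → Ω) :=
  LinearMap.funLeft Ω Ω (fun m : C.M => m * y)

@[simp] theorem tr_apply (y : C.M) (F : C.M → Ω) (m : C.M) : C.tr y F m = F (m * y) := rfl

/-- `T_y (ev h) = ∑ y(h₂) ev(h₁)`. -/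
theorem tr_ev (y : C.M) (h : H) :
    C.tr y (ev C.M h) = ∑ i ∈ (Coalgebra.Repr.arbitrary R h).index,
      y.1 ((Coalgebra.Repr.arbitrary R h).right i) • ev C.M ((Coalgebra.Repr.arbitrary R h).left i) := by
  funext m
  rw [tr_apply, Finset.sum_apply]
  show (m.1 * y.1) h = _
  rw [mul_apply_repr m.1 y.1 (Coalgebra.Repr.arbitrary R h)]
  refine Finset.sum_congr rfl (fun i _ => ?_)
  show _ = y.1 _ * m.1 _
  rw [mul_comm]

/-- `ev h = ∑ ε(h₂) ev(h₁)`. -/
theorem ev_eq_sum_eps (h : H) :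
    ev C.M h = ∑ i ∈ (Coalgebra.Repr.arbitrary R h).index,
      eps (R := R) (Ω := Ω) ((Coalgebra.Repr.arbitrary R h).right i) •
        ev C.M ((Coalgebra.Repr.arbitrary R h).left i) := by
  have h1 := C.tr_ev 1 h
  have h2 : C.tr 1 (ev C.M h) = ev C.M h := by
    funext m
    rw [tr_apply, mul_one]
  rw [h2] at h1
  exact h1

theorem tr_lam (y : C.M) {F : C.M → Ω} (hF : F ∈ C.Λ₀) : C.Lam (C.tr y F) := by
  refine Submodule.span_induction (p := fun F _ => C.Lam (C.tr y F)) ?_ ?_ ?_ ?_ hF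
  · rintro F ⟨h, rfl⟩
    rw [tr_ev]
    exact C.lam_sum _ _ (fun i _ => (C.lam_of_mem (C.ev_mem _)).smul C
      (norm_apply_le_one C.hR y.1 _))
  · rw [map_zero]; exact C.lam_zero
  · intro F₁ F₂ _ _ h₁ h₂
    rw [map_add]; exact h₁.add C h₂
  · intro a F _ hF
    have : C.tr y (a • F) = (a : Ω) • C.tr y F := by
      show C.tr y ((a : Ω) • F) = _
      rw [map_smul]
    rw [this]
    exact hF.smul C (C.norm_le_of_mem a.2)

theorem tr_sub_lamLt {x : C.M} (hx : IsRed0 x.1) {F : C.M → Ω} (hF : F ∈ C.Λ₀) :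
    C.LamLt (C.tr x F - F) := by
  refine Submodule.span_induction (p := fun F _ => C.LamLt (C.tr x F - F)) ?_ ?_ ?_ ?_ hF
  · rintro F ⟨h, rfl⟩
    have h1 : C.tr x (ev C.M h) - ev C.M h = ∑ i ∈ (Coalgebra.Repr.arbitrary R h).index,
        (x.1 ((Coalgebra.Repr.arbitrary R h).right i) -
          eps (R := R) (Ω := Ω) ((Coalgebra.Repr.arbitrary R h).right i)) •
          ev C.M ((Coalgebra.Repr.arbitrary R h).left i) := by
      rw [tr_ev]
      conv_lhs => rw [C.ev_eq_sum_eps h]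
      rw [← Finset.sum_sub_distrib]
      exact Finset.sum_congr rfl (fun i _ => by rw [sub_smul])
    rw [h1]
    exact C.lamLt_sum _ _ (fun i _ => (C.lam_of_mem (C.ev_mem _)).smul_lt C (hx _))
  · rw [map_zero, sub_zero]; exact C.lamLt_zero
  · intro F₁ F₂ _ _ h₁ h₂
    have : C.tr x (F₁ + F₂) - (F₁ + F₂) = (C.tr x F₁ - F₁) + (C.tr x F₂ - F₂) := by
      rw [map_add]; abel
    rw [this]; exact h₁.add C h₂
  · intro a F _ hF
    have : C.tr x (a • F) - a • F = (a : Ω) • (C.tr x F - F) := by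
      show C.tr x ((a : Ω) • F) - (a : Ω) • F = _
      rw [map_smul, smul_sub]
    rw [this]
    exact hF.smul C (C.norm_le_of_mem a.2)

/-- `N`-invariant functions. -/
def NInv (F : C.M → Ω) : Prop := ∀ m n : C.M, n.1 ∈ C.N → F (m * n) = F m

/-- The `N`-invariant elements of `Λ₀` ("the affine algebra of `M/N` over `O₀`"). -/
def A₀ : Submodule C.O₀ (C.M → Ω) where
  carrier := {F | F ∈ C.Λ₀ ∧ C.NInv F}
  add_mem' {F F'} hF hF' := ⟨C.Λ₀.add_mem hF.1 hF'.1, fun m n hn => by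
    simp only [Pi.add_apply, hF.2 m n hn, hF'.2 m n hn]⟩
  zero_mem' := ⟨C.Λ₀.zero_mem, fun _ _ _ => rfl⟩
  smul_mem' a F hF := ⟨C.Λ₀.smul_mem a hF.1, fun m n hn => by
    show (a : Ω) * F (m * n) = (a : Ω) * F m
    rw [hF.2 m n hn]⟩

theorem mem_A₀ {F : C.M → Ω} : F ∈ C.A₀ ↔ F ∈ C.Λ₀ ∧ C.NInv F := Iff.rfl

theorem e_eqv (i : Fin C.n) : IsEqv C.φ C.actM (C.e i) := C.Λ₀_eqv _ (C.e_mem i)

/-- Descent: an equivariant function with integral coordinates lies in `Λ₀`. -/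
theorem mem_Λ₀_of_lam_of_eqv {F : C.M → Ω} (h : C.Lam F) (he : IsEqv C.φ C.actM F) :
    F ∈ C.Λ₀ := by
  classical
  have : Fintype C.M := Fintype.ofFinite C.M
  rw [C.mem_Λ₀_iff]
  intro i
  rw [C.hO₀]
  refine ⟨h i, fun σ hσ => ?_⟩
  exact repr_fixed_of_equivariant (φ := C.φ) (act := C.actM) C.actM_surjective C.e C.e_eqv he
    ⟨σ, hσ⟩ i

theorem tr_eqv (x : C.M) {F : C.M → Ω} (hF : F ∈ C.A₀) : IsEqv C.φ C.actM (C.tr x F) := by
  intro g m
  obtain ⟨n, hn, hxn⟩ := C.hMN g.1 g.2 x.1 x.2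
  have h1 : C.actM g x = x * ⟨n, C.hNM hn⟩ := Subtype.ext hxn
  rw [tr_apply, tr_apply, ← C.Λ₀_eqv F hF.1 g (m * x), C.actM_mul, h1, ← mul_assoc]
  exact (hF.2 _ ⟨n, C.hNM hn⟩ hn).symm

theorem tr_mem_A₀ (x : C.M) {F : C.M → Ω} (hF : F ∈ C.A₀) : C.tr x F ∈ C.A₀ := by
  refine ⟨C.mem_Λ₀_of_lam_of_eqv (C.tr_lam x hF.1) (C.tr_eqv x hF), fun m n hn => ?_⟩
  rw [tr_apply, tr_apply, mul_right_comm]
  exact hF.2 _ n hn

theorem div_mem_A₀ {x : C.M} (hx : IsRed0 x.1) {F : C.M → Ω} (hF : F ∈ C.A₀) :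
    (p : Ω)⁻¹ • (C.tr x F - F) ∈ C.A₀ := by
  have hG : C.tr x F - F ∈ C.Λ₀ := C.Λ₀.sub_mem (C.tr_mem_A₀ x hF).1 hF.1
  refine ⟨?_, fun m n hn => ?_⟩
  · rw [C.mem_Λ₀_iff]
    intro i
    rw [map_smul, Finsupp.smul_apply, smul_eq_mul]
    obtain ⟨b, hb, hab⟩ := C.hunr _ ((C.mem_Λ₀_iff _).mp hG i) (C.tr_sub_lamLt hx hF.1 i)
    rw [hab, inv_mul_cancel_left₀ C.hp0]
    exact hb
  · simp only [Pi.smul_apply, Pi.sub_apply, smul_eq_mul]
    rw [(C.tr_mem_A₀ x hF).2 m n hn, hF.2 m n hn]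

/-- Translation as an endomorphism of `A₀`. -/
noncomputable def Tres (x : C.M) : Module.End C.O₀ C.A₀ where
  toFun F := ⟨C.tr x F.1, C.tr_mem_A₀ x F.2⟩
  map_add' F F' := by
    apply Subtype.ext
    show C.tr x (F.1 + F'.1) = C.tr x F.1 + C.tr x F'.1
    rw [map_add]
  map_smul' a F := by
    apply Subtype.ext
    show C.tr x ((a : Ω) • F.1) = (a : Ω) • C.tr x F.1
    rw [map_smul]

/-- `(T_x - 1)/p` as an endomorphism of `A₀`. -/
noncomputable def Dres {x : C.M} (hx : IsRed0 x.1) : Module.End C.O₀ C.A₀ where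
  toFun F := ⟨(p : Ω)⁻¹ • (C.tr x F.1 - F.1), C.div_mem_A₀ hx F.2⟩
  map_add' F F' := by
    apply Subtype.ext
    show (p : Ω)⁻¹ • (C.tr x (F.1 + F'.1) - (F.1 + F'.1)) =
      (p : Ω)⁻¹ • (C.tr x F.1 - F.1) + (p : Ω)⁻¹ • (C.tr x F'.1 - F'.1)
    rw [map_add, ← smul_add]
    congr 1
    abel
  map_smul' a F := by
    apply Subtype.ext
    show (p : Ω)⁻¹ • (C.tr x ((a : Ω) • F.1) - (a : Ω) • F.1) =
      (a : Ω) • ((p : Ω)⁻¹ • (C.tr x F.1 - F.1))
    rw [map_smul, ← smul_sub, smul_comm]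

theorem tr_tr (x y : C.M) (F : C.M → Ω) : C.tr y (C.tr x F) = C.tr (y * x) F := by
  funext m
  simp only [tr_apply, mul_assoc]

theorem tr_one (F : C.M → Ω) : C.tr 1 F = F := by
  funext m
  rw [tr_apply, mul_one]

theorem Tres_pow (x : C.M) (k : ℕ) (F : C.A₀) : (((C.Tres x) ^ k) F).1 = C.tr (x ^ k) F.1 := by
  induction k generalizing F with
  | zero => rw [pow_zero, pow_zero, tr_one]; rfl
  | succ k ih =>
    rw [pow_succ, Module.End.mul_apply, ih, pow_succ]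
    show C.tr (x ^ k) (C.tr x F.1) = _
    rw [tr_tr]

theorem natCast_end_apply (k : ℕ) (F : C.A₀) :
    (((k : Module.End C.O₀ C.A₀) F : C.A₀) : C.M → Ω) = (k : Ω) • (F : C.M → Ω) := by
  rw [Module.End.natCast_apply]
  rw [Submodule.coe_smul_of_tower, Nat.cast_smul_eq_nsmul]

/-- **Key step**: translation by `x ∈ Red⁰ ∩ M` is the identity on `A₀`. -/
theorem Tres_eq_one {x : C.M} (hx : IsRed0 x.1) : C.Tres x = 1 := by
  have hxp : x ^ p = 1 := Subtype.ext (C.hkill x.1)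
  refine H1.eq_one_of_pow_eq_one p C.hp C.hp2 ?_ ?_ (C.Tres x) ?_ ⟨C.Dres hx, ?_⟩
  · -- torsion-free
    intro d hd
    apply LinearMap.ext
    intro F
    apply Subtype.ext
    have h1 := congrArg (fun f : Module.End C.O₀ C.A₀ => ((f F : C.A₀) : C.M → Ω)) hd
    simp only [Module.End.mul_apply, LinearMap.zero_apply, Submodule.coe_zero] at h1
    rw [natCast_end_apply] at h1
    exact (smul_eq_zero.mp h1).resolve_left C.hp0
  · -- separated
    intro d hd
    apply LinearMap.ext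
    intro F
    apply Subtype.ext
    show ((d F : C.A₀) : C.M → Ω) = 0
    apply C.e.repr.injective
    rw [map_zero]
    ext i
    rw [Finsupp.zero_apply]
    have hbound : ∀ k : ℕ, ‖C.e.repr ((d F : C.A₀) : C.M → Ω) i‖ ≤ ‖(p : Ω)‖ ^ k := by
      intro k
      obtain ⟨e', he'⟩ := hd k
      have h1 : ((d F : C.A₀) : C.M → Ω) = ((p : Ω) ^ k) • ((e' F : C.A₀) : C.M → Ω) := by
        rw [he', ← Nat.cast_pow, Module.End.mul_apply, natCast_end_apply, Nat.cast_pow]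
      rw [h1, map_smul, Finsupp.smul_apply, smul_eq_mul, norm_mul, norm_pow]
      calc ‖(p : Ω)‖ ^ k * ‖C.e.repr ((e' F : C.A₀) : C.M → Ω) i‖ ≤ ‖(p : Ω)‖ ^ k * 1 :=
            mul_le_mul_of_nonneg_left (C.lam_of_mem (e' F).2.1 i) (pow_nonneg (norm_nonneg _) _)
        _ = ‖(p : Ω)‖ ^ k := mul_one _
    have hlim : Filter.Tendsto (fun k : ℕ => ‖(p : Ω)‖ ^ k) Filter.atTop (nhds 0) :=
      tendsto_pow_atTop_nhds_zero_of_lt_one (norm_nonneg _) C.hpn
    exact norm_le_zero_iff.mp (ge_of_tendsto' hlim hbound)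
  · -- `T ^ p = 1`
    apply LinearMap.ext
    intro F
    apply Subtype.ext
    rw [Tres_pow, hxp, tr_one]
    rfl
  · -- `T - 1 = p * D`
    apply LinearMap.ext
    intro F
    apply Subtype.ext
    rw [Module.End.mul_apply, natCast_end_apply]
    show C.tr x F.1 - F.1 = (p : Ω) • ((p : Ω)⁻¹ • (C.tr x F.1 - F.1))
    rw [smul_smul, mul_inv_cancel₀ C.hp0, one_smul]

theorem mem_N_of_mul_mem {m n : WithConv (H →ₐ[R] Ω)} (hn : n ∈ C.N) (hmn : m * n ∈ C.N) :
    m ∈ C.N := by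
  have hp1 : 1 ≤ p := C.hp.one_lt.le
  have h1 : m = (m * n) * n ^ (p - 1) := by
    rw [mul_assoc, ← pow_succ', Nat.sub_add_cancel hp1, C.hkill n, mul_one]
  rw [h1]
  exact C.N.mul_mem hmn (C.N.pow_mem hn _)

open Classical in
/-- The indicator function of `N`. -/
noncomputable def ind : C.M → Ω := fun m => if m.1 ∈ C.N then 1 else 0

theorem ind_nInv : C.NInv C.ind := by
  intro m n hn
  have hiff : (m * n).1 ∈ C.N ↔ m.1 ∈ C.N :=
    ⟨fun h => C.mem_N_of_mul_mem hn h, fun h => C.N.mul_mem h hn⟩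
  unfold ind
  by_cases h : m.1 ∈ C.N
  · rw [if_pos h, if_pos (hiff.mpr h)]
  · rw [if_neg h, if_neg (fun h' => h (hiff.mp h'))]

theorem ind_eqv : IsEqv C.φ C.actM C.ind := by
  intro g m
  have hiff : (C.actM g m).1 ∈ C.N ↔ m.1 ∈ C.N := by
    constructor
    · intro h
      have h1 := C.hNI g.1⁻¹ (C.hIinv g.1 g.2) _ h
      have h2 : act g.1⁻¹ (C.actM g m).1 = m.1 := by
        show act g.1⁻¹ (act g.1 m.1) = m.1
        rw [← act_mul', inv_mul_cancel, act_one']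
      rwa [h2] at h1
    · exact fun h => C.hNI g.1 g.2 _ h
  unfold ind
  by_cases h : m.1 ∈ C.N
  · rw [if_pos h, if_pos (hiff.mpr h), map_one]
  · rw [if_neg h, if_neg (fun h' => h (hiff.mp h')), map_zero]

/-- **F2 (abstract form).** -/
theorem main {x : WithConv (H →ₐ[R] Ω)} (hxM : x ∈ C.M) (hx0 : IsRed0 x) : x ∈ C.N := by
  classical
  have : Fintype C.M := Fintype.ofFinite C.M
  obtain ⟨k, hk⟩ := exists_pow_mul_norm_le_one C.hpn Finset.univ (fun i => C.e.repr C.ind i)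
  -- the scaled indicator lies in `A₀`
  have hF : ((p : Ω) ^ k) • C.ind ∈ C.A₀ := by
    refine ⟨C.mem_Λ₀_of_lam_of_eqv ?_ ?_, fun m n hn => ?_⟩
    · intro i
      rw [map_smul, Finsupp.smul_apply, smul_eq_mul]
      exact hk i (Finset.mem_univ i)
    · intro g m
      simp only [Pi.smul_apply, smul_eq_mul]
      rw [C.ind_eqv g m, map_mul, map_pow, φ_apply, map_natCast]
    · simp only [Pi.smul_apply, smul_eq_mul]
      rw [C.ind_nInv m n hn]
  have h1 := congrArg (fun f : Module.End C.O₀ C.A₀ =>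
    ((f ⟨_, hF⟩ : C.A₀) : C.M → Ω) 1) (C.Tres_eq_one (x := ⟨x, hxM⟩) hx0)
  simp only [Module.End.one_apply] at h1
  change C.tr ⟨x, hxM⟩ (((p : Ω) ^ k) • C.ind) 1 = (((p : Ω) ^ k) • C.ind) 1 at h1
  rw [tr_apply, one_mul] at h1
  simp only [Pi.smul_apply, smul_eq_mul] at h1
  have h2 : C.ind ⟨x, hxM⟩ = C.ind 1 := mul_left_cancel₀ (pow_ne_zero k C.hp0) h1
  have h3 : C.ind 1 = 1 := by
    simp only [ind]
    rw [if_pos]
    exact C.N.one_mem
  rw [h3] at h2
  by_contra hxN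
  simp only [ind] at h2
  rw [if_neg hxN] at h2
  exact zero_ne_one h2

end Ctx

end Fermat.Agent.TW.CE46.F2
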