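/-
Programme TW (S56), brick B5 / (CE) CE-lite, helper46.

`Points`: points of a finite commutative cocommutative Hopf algebra `H` over `R` with values in a
nonarchimedean normed field `Ω` (think `R = ℤ_(p)` or `ℤ_p`, `Ω = PadicAlgCl p`), as the
commutative monoid `WithConv (H →ₐ[R] Ω)` of Mathlib (this is the object used by the Prelude's
`GaloisRepAdic.IsFlatAt`).

* `norm_apply_le_one` : points are integral (`‖x h‖ ≤ 1`);
* `lin` : the underlying element of the convolution ring `WithConv (H →ₗ[R] Ω)`;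
* `IsRed0 x` : `x ≡ ε` modulo the maximal ideal (kernel of reduction), closed under products;
* `act σ` : the action of an `R`-algebra automorphism `σ` of `Ω` on points;
* `intSub O₀` : the subring of the convolution ring of maps with values in a subring `O₀`;
* **F1** (`eq_one_of_isRed0_of_mem`): a point killed by `p` (odd), in `Red0`, with values in a
  subring `O₀ ⊆ {‖·‖ ≤ 1}` which is unramified (`a ∈ O₀, ‖a‖ < 1 → a ∈ p O₀`), is trivial.
-/
import Mathlib
import Fermat.Agent.TW.CE46.H1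

set_option autoImplicit false
set_option linter.unusedSectionVars false

namespace Fermat.Agent.TW.CE46.Points

open WithConv Coalgebra

section Basic

variable {R H Ω : Type*} [CommRing R] [CommRing H] [HopfAlgebra R H]
  [NormedField Ω] [IsUltrametricDist Ω] [Algebra R Ω]

/-- An element of `Ω` integral over `R` has norm `≤ 1` (if `R` maps into the unit ball). -/
theorem norm_le_one_of_isIntegral (hR : ∀ r : R, ‖algebraMap R Ω r‖ ≤ 1) {a : Ω}
    (ha : IsIntegral R a) : ‖a‖ ≤ 1 := by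
  let v : Valuation Ω NNReal := NormedField.valuation
  have hmem : ∀ r : R, algebraMap R Ω r ∈ v.integer := fun r => by
    rw [Valuation.mem_integer_iff]
    exact_mod_cast hR r
  let φ : R →+* v.integer := (algebraMap R Ω).codRestrict v.integer hmem
  have h1 : IsIntegral v.integer a := by
    have := IsIntegral.map_of_comp_eq φ (RingHom.id Ω) (by ext r; rfl) ha
    simpa using this
  have h2 := (Valuation.integer.integers v).mem_of_integral h1
  rw [Valuation.mem_integer_iff] at h2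
  exact_mod_cast h2

/-- Strict ultrametric inequality for finite sums. -/
theorem norm_sum_lt {ι : Type*} (s : Finset ι) (f : ι → Ω) {C : ℝ} (hC : 0 < C)
    (h : ∀ i ∈ s, ‖f i‖ < C) : ‖∑ i ∈ s, f i‖ < C := by
  rcases s.eq_empty_or_nonempty with rfl | hs
  · simpa using hC
  · obtain ⟨i, hi, hle⟩ := IsUltrametricDist.exists_norm_finsetSum_le_of_nonempty hs f
    exact lt_of_le_of_lt hle (h i hi)

/-- Points of a finite `R`-algebra are integral. -/
theorem norm_apply_le_one [Module.Finite R H] (hR : ∀ r : R, ‖algebraMap R Ω r‖ ≤ 1)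
    (x : WithConv (H →ₐ[R] Ω)) (h : H) : ‖x h‖ ≤ 1 := by
  have hint : IsIntegral R h := Algebra.IsIntegral.isIntegral h
  exact norm_le_one_of_isIntegral hR (hint.map x.ofConv)

/-- The counit, with values in `Ω`. -/
def eps (h : H) : Ω := algebraMap R Ω (counit (R := R) h)

theorem one_apply (h : H) : (1 : WithConv (H →ₐ[R] Ω)) h = eps (R := R) h := rfl

theorem norm_eps_le_one (hR : ∀ r : R, ‖algebraMap R Ω r‖ ≤ 1) (h : H) :
    ‖eps (R := R) (Ω := Ω) h‖ ≤ 1 := hR _

/-- The element of the convolution ring attached to a point. -/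
def lin (x : WithConv (H →ₐ[R] Ω)) : WithConv (H →ₗ[R] Ω) := toConv x.ofConv.toLinearMap

@[simp] theorem lin_apply (x : WithConv (H →ₐ[R] Ω)) (h : H) : lin x h = x h := rfl

theorem lin_one : lin (1 : WithConv (H →ₐ[R] Ω)) = 1 := rfl

theorem lin_mul (x y : WithConv (H →ₐ[R] Ω)) : lin (x * y) = lin x * lin y := rfl

theorem lin_pow (x : WithConv (H →ₐ[R] Ω)) (n : ℕ) : lin (x ^ n) = lin x ^ n :=
  AlgHom.toLinearMap_convPow x n

theorem lin_injective : Function.Injective (lin : WithConv (H →ₐ[R] Ω) → _) := by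
  intro x y hxy
  apply WithConv.ext
  apply AlgHom.toLinearMap_injective
  exact congrArg ofConv hxy

/-- The product of two points, evaluated via a representation of the comultiplication. -/
theorem mul_apply_repr {ι : Type*} (x y : WithConv (H →ₐ[R] Ω)) {h : H} (𝓡 : Coalgebra.Repr R h ι) :
    (x * y) h = ∑ i ∈ 𝓡.index, x (𝓡.left i) * y (𝓡.right i) := by
  have := 𝓡.convMul_apply (lin x) (lin y)
  rw [← lin_mul] at this
  exact this

/-- `ε(h) = ∑ ε(h₁) ε(h₂)`. -/
theorem eps_eq_sum {ι : Type*} {h : H} (𝓡 : Coalgebra.Repr R h ι) :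
    eps (R := R) (Ω := Ω) h = ∑ i ∈ 𝓡.index, eps (R := R) (𝓡.left i) * eps (R := R) (𝓡.right i) := by
  have h1 := mul_apply_repr (1 : WithConv (H →ₐ[R] Ω)) 1 𝓡
  rw [one_mul] at h1
  exact h1

/-- `x ≡ ε` modulo the maximal ideal: the kernel of reduction. -/
def IsRed0 (x : WithConv (H →ₐ[R] Ω)) : Prop := ∀ h : H, ‖x h - eps (R := R) h‖ < 1

theorem isRed0_one : IsRed0 (1 : WithConv (H →ₐ[R] Ω)) := fun h => by
  rw [one_apply, sub_self, norm_zero]; exact one_pos

theorem IsRed0.mul [Module.Finite R H] (hR : ∀ r : R, ‖algebraMap R Ω r‖ ≤ 1)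
    {x y : WithConv (H →ₐ[R] Ω)} (hx : IsRed0 x) (hy : IsRed0 y) : IsRed0 (x * y) := by
  intro h
  set 𝓡 := Coalgebra.Repr.arbitrary R h
  rw [mul_apply_repr x y 𝓡, eps_eq_sum 𝓡, ← Finset.sum_sub_distrib]
  refine norm_sum_lt _ _ one_pos ?_
  intro i _
  have e1 : x (𝓡.left i) * y (𝓡.right i) - eps (R := R) (𝓡.left i) * eps (R := R) (𝓡.right i) =
      (x (𝓡.left i) - eps (R := R) (𝓡.left i)) * y (𝓡.right i) +
        eps (R := R) (𝓡.left i) * (y (𝓡.right i) - eps (R := R) (𝓡.right i)) := by ring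
  rw [e1]
  refine lt_of_le_of_lt (IsUltrametricDist.norm_add_le_max _ _) (max_lt ?_ ?_)
  · rw [norm_mul]
    calc ‖x (𝓡.left i) - eps (R := R) (𝓡.left i)‖ * ‖y (𝓡.right i)‖
        ≤ ‖x (𝓡.left i) - eps (R := R) (𝓡.left i)‖ * 1 :=
          mul_le_mul_of_nonneg_left (norm_apply_le_one hR y _) (norm_nonneg _)
      _ < 1 := by rw [mul_one]; exact hx _
  · rw [norm_mul]
    calc ‖eps (R := R) (Ω := Ω) (𝓡.left i)‖ * ‖y (𝓡.right i) - eps (R := R) (𝓡.right i)‖
        ≤ 1 * ‖y (𝓡.right i) - eps (R := R) (𝓡.right i)‖ :=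
          mul_le_mul_of_nonneg_right (norm_eps_le_one hR _) (norm_nonneg _)
      _ < 1 := by rw [one_mul]; exact hy _

end Basic


section Action

variable {R H Ω : Type*} [CommRing R] [CommRing H] [HopfAlgebra R H] [Coalgebra.IsCocomm R H]
  [NormedField Ω] [IsUltrametricDist Ω] [Algebra R Ω]

/-- The action of an `R`-algebra automorphism of `Ω` on points: `σ x = σ ∘ x`. -/
def act (σ : Ω ≃ₐ[R] Ω) : WithConv (H →ₐ[R] Ω) →* WithConv (H →ₐ[R] Ω) where
  toFun x := toConv ((σ : Ω →ₐ[R] Ω).comp x.ofConv)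
  map_one' := by
    apply WithConv.ext
    apply AlgHom.ext
    intro h
    show σ (algebraMap R Ω (counit (R := R) h)) = algebraMap R Ω (counit (R := R) h)
    exact σ.commutes _
  map_mul' x y := by
    apply WithConv.ext
    exact AlgHom.comp_convMul_distrib (σ : Ω →ₐ[R] Ω) x y

@[simp] theorem act_apply (σ : Ω ≃ₐ[R] Ω) (x : WithConv (H →ₐ[R] Ω)) (h : H) :
    act σ x h = σ (x h) := rfl

theorem act_one' (x : WithConv (H →ₐ[R] Ω)) : act (1 : Ω ≃ₐ[R] Ω) x = x := by
  apply WithConv.ext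
  apply AlgHom.ext
  intro h
  rfl

theorem act_mul' (σ τ : Ω ≃ₐ[R] Ω) (x : WithConv (H →ₐ[R] Ω)) :
    act (σ * τ) x = act σ (act τ x) := by
  apply WithConv.ext
  apply AlgHom.ext
  intro h
  rfl

theorem act_eps (σ : Ω ≃ₐ[R] Ω) (h : H) : σ (eps (R := R) (Ω := Ω) h) = eps (R := R) h :=
  σ.commutes _

/-- `Red0` is stable under norm-preserving automorphisms. -/
theorem IsRed0.act {σ : Ω ≃ₐ[R] Ω} (hσ : ∀ a : Ω, ‖σ a‖ = ‖a‖) {x : WithConv (H →ₐ[R] Ω)}
    (hx : IsRed0 x) : IsRed0 (act σ x) := by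
  intro h
  rw [act_apply, ← act_eps σ h, ← map_sub, hσ]
  exact hx h

/-- If `σ` acts trivially on the residue field (inertia) and `σ x = x * y` then `y ∈ Red0`:
"`(σ - 1) V ⊆ Red0`". -/
theorem isRed0_of_act_eq_mul [Module.Finite R H] (hR : ∀ r : R, ‖algebraMap R Ω r‖ ≤ 1)
    {σ : Ω ≃ₐ[R] Ω} (hσ : ∀ a : Ω, ‖a‖ ≤ 1 → ‖σ a - a‖ < 1)
    {x y z : WithConv (H →ₐ[R] Ω)} (hxz : x * z = 1) (hy : act σ x = x * y) : IsRed0 y := by
  -- `y = z * σ x`
  have hy' : y = z * act σ x := by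
    rw [hy, ← mul_assoc, mul_comm z x, hxz, one_mul]
  intro h
  set 𝓡 := Coalgebra.Repr.arbitrary R h
  have h1 : eps (R := R) (Ω := Ω) h = ∑ i ∈ 𝓡.index, z (𝓡.left i) * x (𝓡.right i) := by
    rw [← mul_apply_repr z x 𝓡, mul_comm z x, hxz]; rfl
  rw [hy', mul_apply_repr z (act σ x) 𝓡, h1, ← Finset.sum_sub_distrib]
  refine norm_sum_lt _ _ one_pos ?_
  intro i _
  rw [act_apply, ← mul_sub, norm_mul]
  calc ‖z (𝓡.left i)‖ * ‖σ (x (𝓡.right i)) - x (𝓡.right i)‖
      ≤ 1 * ‖σ (x (𝓡.right i)) - x (𝓡.right i)‖ :=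
        mul_le_mul_of_nonneg_right (norm_apply_le_one hR z _) (norm_nonneg _)
    _ < 1 := by rw [one_mul]; exact hσ _ (norm_apply_le_one hR x _)

end Action

section IntSub

variable {R H Ω : Type*} [CommRing R] [CommRing H] [HopfAlgebra R H] [Coalgebra.IsCocomm R H]
  [NormedField Ω] [IsUltrametricDist Ω] [Algebra R Ω]

/-- The subring of the convolution ring `WithConv (H →ₗ[R] Ω)` of maps with values in a subring
`O₀` containing the image of `R`. -/
def intSub (O₀ : Subring Ω) (hO₀R : ∀ r : R, algebraMap R Ω r ∈ O₀) :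
    Subring (WithConv (H →ₗ[R] Ω)) where
  carrier := {f | ∀ h : H, f h ∈ O₀}
  mul_mem' {f g} hf hg h := by
    rw [(Coalgebra.Repr.arbitrary R h).convMul_apply]
    exact Subring.sum_mem _ (fun i _ => O₀.mul_mem (hf _) (hg _))
  one_mem' h := hO₀R _
  add_mem' {f g} hf hg h := O₀.add_mem (hf h) (hg h)
  zero_mem' h := O₀.zero_mem
  neg_mem' {f} hf h := O₀.neg_mem (hf h)

theorem mem_intSub {O₀ : Subring Ω} {hO₀R : ∀ r : R, algebraMap R Ω r ∈ O₀}
    {f : WithConv (H →ₗ[R] Ω)} : f ∈ intSub (H := H) O₀ hO₀R ↔ ∀ h : H, f h ∈ O₀ := Iff.rfl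

/-- evaluation of a natural multiple in the convolution ring -/
theorem natCast_mul_apply (n : ℕ) (f : WithConv (H →ₗ[R] Ω)) (h : H) :
    ((n : WithConv (H →ₗ[R] Ω)) * f) h = (n : Ω) * f h := by
  rw [← nsmul_eq_mul]
  show (n • f.ofConv) h = _
  rw [LinearMap.smul_apply, nsmul_eq_mul]

/-- **F1 (abstract form).**  A point killed by the odd prime `p`, congruent to the counit modulo the
maximal ideal, with values in an unramified subring `O₀` of the unit ball, is trivial. -/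
theorem eq_one_of_isRed0_of_mem (p : ℕ) (hp : p.Prime) (hp2 : p ≠ 2)
    (hp0 : (p : Ω) ≠ 0) (hpn : ‖(p : Ω)‖ < 1)
    (O₀ : Subring Ω) (hO₀R : ∀ r : R, algebraMap R Ω r ∈ O₀) (hO₀n : ∀ a ∈ O₀, ‖a‖ ≤ 1)
    (hunr : ∀ a ∈ O₀, ‖a‖ < 1 → ∃ b ∈ O₀, a = (p : Ω) * b)
    (x : WithConv (H →ₐ[R] Ω)) (hxp : x ^ p = 1) (hx0 : IsRed0 x) (hxO : ∀ h : H, x h ∈ O₀) :
    x = 1 := by
  set D := intSub (H := H) O₀ hO₀R with hD
  -- the element `c` of `D` attached to `x`
  let c : D := ⟨lin x, hxO⟩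
  have hc : c ^ p = 1 := by
    apply Subtype.ext
    show (lin x) ^ p = 1
    rw [← lin_pow, hxp, lin_one]
  -- torsion-freeness
  have htf : ∀ d : D, (p : D) * d = 0 → d = 0 := by
    intro d hd
    apply Subtype.ext
    apply WithConv.ext
    apply LinearMap.ext
    intro h
    have h1 : ((p : WithConv (H →ₗ[R] Ω)) * (d : WithConv (H →ₗ[R] Ω))) h = 0 := by
      have := congrArg (fun e : D => (e : WithConv (H →ₗ[R] Ω)) h) hd
      simpa using this
    rw [natCast_mul_apply] at h1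
    exact (mul_eq_zero.mp h1).resolve_left hp0
  -- separatedness
  have hsep : ∀ d : D, (∀ n : ℕ, ∃ e : D, d = (p : D) ^ n * e) → d = 0 := by
    intro d hd
    apply Subtype.ext
    apply WithConv.ext
    apply LinearMap.ext
    intro h
    have hbound : ∀ n : ℕ, ‖(d : WithConv (H →ₗ[R] Ω)) h‖ ≤ ‖(p : Ω)‖ ^ n := by
      intro n
      obtain ⟨e, he⟩ := hd n
      have h1 : (d : WithConv (H →ₗ[R] Ω)) h = (p : Ω) ^ n * (e : WithConv (H →ₗ[R] Ω)) h := by
        have := congrArg (fun e : D => (e : WithConv (H →ₗ[R] Ω)) h) he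
        simp only [Subring.coe_mul, Subring.coe_pow, Subring.coe_natCast] at this
        rw [this, ← Nat.cast_pow, natCast_mul_apply, Nat.cast_pow]
      rw [h1, norm_mul, norm_pow]
      calc ‖(p : Ω)‖ ^ n * ‖(e : WithConv (H →ₗ[R] Ω)) h‖ ≤ ‖(p : Ω)‖ ^ n * 1 :=
            mul_le_mul_of_nonneg_left (hO₀n _ (e.2 h)) (pow_nonneg (norm_nonneg _) _)
        _ = ‖(p : Ω)‖ ^ n := mul_one _
    have hlim : Filter.Tendsto (fun n : ℕ => ‖(p : Ω)‖ ^ n) Filter.atTop (nhds 0) :=
      tendsto_pow_atTop_nhds_zero_of_lt_one (norm_nonneg _) hpn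
    have h0 : ‖(d : WithConv (H →ₗ[R] Ω)) h‖ ≤ 0 := ge_of_tendsto' hlim hbound
    exact norm_le_zero_iff.mp h0
  -- `c - 1 ∈ p D`
  have h1 : ∃ d : D, c - 1 = (p : D) * d := by
    have hval : ∀ h : H, (p : Ω)⁻¹ * (x h - eps (R := R) h) ∈ O₀ := by
      intro h
      have hm : x h - eps (R := R) h ∈ O₀ := O₀.sub_mem (hxO h) (hO₀R _)
      obtain ⟨b, hb, hab⟩ := hunr _ hm (hx0 h)
      rw [hab, inv_mul_cancel_left₀ hp0]
      exact hb
    let d0 : WithConv (H →ₗ[R] Ω) := toConv ((p : Ω)⁻¹ • (lin x - 1).ofConv)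
    have hd0 : ∀ h : H, d0 h = (p : Ω)⁻¹ * (x h - eps (R := R) h) := fun h => rfl
    refine ⟨⟨d0, fun h => by rw [hd0]; exact hval h⟩, ?_⟩
    apply Subtype.ext
    apply WithConv.ext
    apply LinearMap.ext
    intro h
    show (lin x - 1) h = ((p : WithConv (H →ₗ[R] Ω)) * d0) h
    rw [natCast_mul_apply, hd0, mul_inv_cancel_left₀ hp0]
    rfl
  have hc1 := H1.eq_one_of_pow_eq_one p hp hp2 htf hsep c hc h1
  apply lin_injective
  rw [lin_one]
  exact congrArg Subtype.val hc1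

end IntSub

end Fermat.Agent.TW.CE46.Points
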