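/-
Programme TW (S56), brick B5 / (CE) CE-lite, helper46.

`Unram`: the ring `O₀` of integral elements of an ultrametric normed field `Ω` fixed by a family of
ring automorphisms is a discrete valuation ring (in particular a PID) as soon as it is
"unramified with uniformiser `π`": `a ∈ O₀`, `‖a‖ < 1` ⟹ `‖a‖ ≤ ‖π‖`.
-/
import Mathlib

set_option autoImplicit false
set_option linter.unusedSectionVars false

namespace Fermat.Agent.TW.CE46.Unram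

variable {Ω : Type*} [NormedField Ω] {G : Type*} (φ : G → Ω ≃+* Ω)
variable (O₀ : Subring Ω) (hO₀ : ∀ a : Ω, a ∈ O₀ ↔ ‖a‖ ≤ 1 ∧ ∀ g, φ g a = a)
variable {π : Ω} (hπ0 : π ≠ 0) (hπ1 : ‖π‖ < 1) (hπfix : ∀ g, φ g π = π)
variable (hunr : ∀ a ∈ O₀, ‖a‖ < 1 → ‖a‖ ≤ ‖π‖)

include hO₀ in
theorem inv_mem_of_norm_eq_one {a : Ω} (ha : a ∈ O₀) (h1 : ‖a‖ = 1) : a⁻¹ ∈ O₀ := by
  rw [hO₀] at ha ⊢
  refine ⟨by rw [norm_inv, h1, inv_one], fun g => ?_⟩
  rw [map_inv₀, ha.2 g]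

include hO₀ hπ1 hπfix in
theorem pi_mem : π ∈ O₀ := by
  rw [hO₀]
  exact ⟨hπ1.le, hπfix⟩

include hO₀ hπ0 hπfix hunr in
/-- Division by `π` of an element of norm `< 1`. -/
theorem div_mem {a : Ω} (ha : a ∈ O₀) (h1 : ‖a‖ < 1) : π⁻¹ * a ∈ O₀ := by
  have hle := hunr a ha h1
  rw [hO₀] at ha ⊢
  refine ⟨?_, fun g => ?_⟩
  · rw [norm_mul, norm_inv]
    have hπpos : 0 < ‖π‖ := norm_pos_iff.mpr hπ0
    rw [inv_mul_le_iff₀ hπpos, mul_one]
    exact hle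
  · rw [map_mul, map_inv₀, hπfix, ha.2 g]

include hO₀ hπ0 hπ1 hπfix hunr in
/-- Every nonzero element of `O₀` is a power of `π` times an element of norm one. -/
theorem exists_eq_pow_mul {x : Ω} (hx : x ∈ O₀) (hx0 : x ≠ 0) :
    ∃ (n : ℕ) (u : Ω), u ∈ O₀ ∧ ‖u‖ = 1 ∧ x = π ^ n * u := by
  have hπpos : 0 < ‖π‖ := norm_pos_iff.mpr hπ0
  obtain ⟨N, hN⟩ := exists_pow_lt_of_lt_one (norm_pos_iff.mpr hx0) hπ1
  induction N generalizing x with
  | zero =>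
    exfalso
    rw [pow_zero] at hN
    exact absurd ((hO₀ x).mp hx).1 (not_le.mpr hN)
  | succ N ih =>
    rcases lt_or_eq_of_le ((hO₀ x).mp hx).1 with hlt | heq
    · have hy := div_mem φ O₀ hO₀ hπ0 hπfix hunr hx hlt
      have hy0 : π⁻¹ * x ≠ 0 := mul_ne_zero (inv_ne_zero hπ0) hx0
      have hyN : ‖π‖ ^ N < ‖π⁻¹ * x‖ := by
        rw [norm_mul, norm_inv, lt_inv_mul_iff₀ hπpos, ← pow_succ']
        exact hN
      obtain ⟨n, u, hu, hu1, hxu⟩ := ih hy hy0 hyN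
      refine ⟨n + 1, u, hu, hu1, ?_⟩
      rw [pow_succ', mul_assoc, ← hxu, mul_inv_cancel_left₀ hπ0]
    · exact ⟨0, x, hx, heq, by simp⟩

include hO₀ hπ0 hπ1 hπfix hunr in
/-- `O₀` is a discrete valuation ring. -/
theorem isDiscreteValuationRing : IsDiscreteValuationRing O₀ := by
  have hπmem : π ∈ O₀ := pi_mem φ O₀ hO₀ hπ1 hπfix
  -- units of `O₀` are the elements of norm one
  have hunit : ∀ a : O₀, ‖(a : Ω)‖ = 1 → IsUnit a := by
    intro a ha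
    refine IsUnit.of_mul_eq_one ⟨(a : Ω)⁻¹, inv_mem_of_norm_eq_one φ O₀ hO₀ a.2 ha⟩ ?_
    apply Subtype.ext
    have ha0 : (a : Ω) ≠ 0 := by
      intro h0
      rw [h0, norm_zero] at ha
      exact zero_ne_one ha
    exact mul_inv_cancel₀ ha0
  have hnorm_unit : ∀ a : O₀, IsUnit a → ‖(a : Ω)‖ = 1 := by
    intro a ha
    obtain ⟨b, hb⟩ := ha.exists_right_inv
    have h1 : (a : Ω) * (b : Ω) = 1 := congrArg Subtype.val hb
    have h2 : ‖(a : Ω)‖ * ‖(b : Ω)‖ = 1 := by rw [← norm_mul, h1, norm_one]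
    have ha1 := ((hO₀ a).mp a.2).1
    have hb1 := ((hO₀ b).mp b.2).1
    by_contra hne
    have hlt : ‖(a : Ω)‖ < 1 := lt_of_le_of_ne ha1 hne
    have : ‖(a : Ω)‖ * ‖(b : Ω)‖ < 1 := by
      calc ‖(a : Ω)‖ * ‖(b : Ω)‖ ≤ ‖(a : Ω)‖ * 1 :=
            mul_le_mul_of_nonneg_left hb1 (norm_nonneg _)
        _ < 1 := by rw [mul_one]; exact hlt
    rw [h2] at this
    exact lt_irrefl _ this
  apply IsDiscreteValuationRing.ofHasUnitMulPowIrreducibleFactorization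
  refine ⟨⟨π, hπmem⟩, ?_, ?_⟩
  · -- irreducible
    refine ⟨fun hu => ?_, fun a b hab => ?_⟩
    · have := hnorm_unit _ hu
      exact absurd this hπ1.ne
    · have h1 : π = (a : Ω) * (b : Ω) := congrArg Subtype.val hab
      by_contra hcon
      rw [not_or] at hcon
      have ha1 : ‖(a : Ω)‖ < 1 := lt_of_le_of_ne ((hO₀ a).mp a.2).1
        (fun h => hcon.1 (hunit a h))
      have hb1 : ‖(b : Ω)‖ < 1 := lt_of_le_of_ne ((hO₀ b).mp b.2).1
        (fun h => hcon.2 (hunit b h))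
      have ha2 := hunr a a.2 ha1
      have hπpos : 0 < ‖π‖ := norm_pos_iff.mpr hπ0
      have : ‖π‖ < ‖π‖ := by
        calc ‖π‖ = ‖(a : Ω)‖ * ‖(b : Ω)‖ := by rw [← norm_mul, ← h1]
          _ ≤ ‖π‖ * ‖(b : Ω)‖ := mul_le_mul_of_nonneg_right ha2 (norm_nonneg _)
          _ < ‖π‖ * 1 := mul_lt_mul_of_pos_left hb1 hπpos
          _ = ‖π‖ := mul_one _
      exact lt_irrefl _ this
  · intro x hx0
    have hx0' : (x : Ω) ≠ 0 := fun h => hx0 (Subtype.ext h)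
    obtain ⟨n, u, hu, hu1, hxu⟩ := exists_eq_pow_mul φ O₀ hO₀ hπ0 hπ1 hπfix hunr x.2 hx0'
    refine ⟨n, ?_⟩
    obtain ⟨v, hv⟩ := hunit ⟨u, hu⟩ hu1
    refine ⟨v, ?_⟩
    apply Subtype.ext
    rw [hv]
    exact hxu.symm

include hO₀ hπ0 hπ1 hπfix hunr in
theorem isPrincipalIdealRing : IsPrincipalIdealRing O₀ := by
  have := isDiscreteValuationRing φ O₀ hO₀ hπ0 hπ1 hπfix hunr
  infer_instance

end Fermat.Agent.TW.CE46.Unram
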