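/-
Programme TW (S56), brick B5 / (CE) CE-lite, helper46.

`Concrete`: instantiation of the abstract CE-lite core (`Points`, `F2`) at the local model of
`TW/B5/Iface.lean` (`K̄ = PadicAlgCl p`, base ring `ℤ_(p)`), giving

  `statementF1 : InertiaFixedUnram p → Iface.StatementF1 p`
  `statementF2 : InertiaFixedUnram p → Iface.StatementF2 p`

where `InertiaFixedUnram p` is the one field-theoretic input: an element of `K̄` fixed by all
inertial automorphisms and of norm `< 1` has norm `≤ ‖p‖` (the fixed field of inertia is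
unramified over `ℚ_p`).
-/
import Mathlib
import Fermat.Agent.TW.B5.Iface
import Fermat.Agent.TW.CE46.Points
import Fermat.Agent.TW.CE46.F2
import Fermat.Agent.TW.CE46.Unram

set_option autoImplicit false
set_option linter.unusedSectionVars false

namespace Fermat.Agent.TW.CE46.Concrete

open Fermat.Agent.TW.B5.Iface
open Fermat.Agent.TW.CE46

variable (p : ℕ) [Fact p.Prime]

/-- **The field-theoretic input**: the fixed field of inertia is unramified over `ℚ_p`. -/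
def InertiaFixedUnram : Prop :=
  ∀ x : Kbar p, (∀ τ : Gp p, IsInertial p τ → τ x = x) → ‖x‖ < 1 → ‖x‖ ≤ ‖(p : Kbar p)‖

theorem norm_algebraMap_le_one (r : Zloc p) : ‖algebraMap (Zloc p) (Kbar p) r‖ ≤ 1 := by
  rw [IsScalarTower.algebraMap_apply (Zloc p) ℚ_[p] (Kbar p)]
  have h1 : ‖algebraMap ℚ_[p] (Kbar p) (algebraMap (Zloc p) ℚ_[p] r)‖ =
      ‖algebraMap (Zloc p) ℚ_[p] r‖ := PadicAlgCl.norm_extends p _
  rw [h1]
  have h2 : algebraMap (Zloc p) ℚ_[p] r = (((r : ℚ) : ℚ_[p])) := rfl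
  rw [h2]
  apply Padic.norm_rat_le_one
  have hr : ((r : ℚ)).den.Coprime p := r.2
  exact fun hdvd => (Nat.Prime.coprime_iff_not_dvd (Fact.out : p.Prime)).mp hr.symm hdvd

theorem norm_p : ‖(p : Kbar p)‖ = (p : ℝ)⁻¹ := by
  have h1 : ((p : ℚ_[p]) : Kbar p) = (p : Kbar p) := map_natCast (algebraMap ℚ_[p] (Kbar p)) p
  rw [← h1]
  have h2 : ‖((p : ℚ_[p]) : Kbar p)‖ = ‖(p : ℚ_[p])‖ := PadicAlgCl.norm_extends p _
  rw [h2, Padic.norm_p]

theorem norm_p_lt_one : ‖(p : Kbar p)‖ < 1 := by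
  rw [norm_p]
  exact inv_lt_one_of_one_lt₀ (by exact_mod_cast (Fact.out : p.Prime).one_lt)

theorem p_ne_zero : (p : Kbar p) ≠ 0 := by
  exact_mod_cast (Fact.out : p.Prime).ne_zero

theorem norm_gal (τ : Gp p) (x : Kbar p) : ‖τ x‖ = ‖x‖ := by
  have := nnnorm_padicAlgCl_algEquiv p τ x
  exact congrArg NNReal.toReal this

variable {p}

theorem isInertial_inv {τ : Gp p} (hτ : IsInertial p τ) : IsInertial p τ⁻¹ := by
  intro x hx
  have h1 : ‖τ⁻¹ x - x‖ = ‖τ (τ⁻¹ x - x)‖ := (norm_gal p τ _).symm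
  rw [h1, map_sub]
  have h2 : τ (τ⁻¹ x) = x := by
    show (τ * τ⁻¹) x = x
    rw [mul_inv_cancel]; rfl
  rw [h2, ← norm_neg, neg_sub]
  exact hτ x hx

variable (p)

/-- The inertial automorphisms, as `ℤ_(p)`-algebra automorphisms of `K̄`. -/
def inertiaSet : Set (Kbar p ≃ₐ[Zloc p] Kbar p) :=
  {σ | ∃ τ : Gp p, IsInertial p τ ∧ τ.restrictScalars (Zloc p) = σ}

theorem inertiaSet_inv : ∀ σ ∈ inertiaSet p, σ⁻¹ ∈ inertiaSet p := by
  rintro σ ⟨τ, hτ, rfl⟩
  exact ⟨τ⁻¹, isInertial_inv hτ, rfl⟩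

/-- The ring of integral elements fixed by inertia. -/
def fixedInt : Subring (Kbar p) where
  carrier := {a | ‖a‖ ≤ 1 ∧ ∀ τ : Gp p, IsInertial p τ → τ a = a}
  mul_mem' {a b} ha hb := ⟨by rw [norm_mul]; exact mul_le_one₀ ha.1 (norm_nonneg _) hb.1,
    fun τ hτ => by rw [map_mul, ha.2 τ hτ, hb.2 τ hτ]⟩
  one_mem' := ⟨by simp, fun τ _ => map_one τ⟩
  add_mem' {a b} ha hb := ⟨(PadicAlgCl.isNonarchimedean p a b).trans (max_le ha.1 hb.1),
    fun τ hτ => by rw [map_add, ha.2 τ hτ, hb.2 τ hτ]⟩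
  zero_mem' := ⟨by simp, fun τ _ => map_zero τ⟩
  neg_mem' {a} ha := ⟨by rw [norm_neg]; exact ha.1, fun τ hτ => by rw [map_neg, ha.2 τ hτ]⟩

theorem mem_fixedInt_iff (a : Kbar p) :
    a ∈ fixedInt p ↔ ‖a‖ ≤ 1 ∧ ∀ σ ∈ inertiaSet p, σ a = a := by
  constructor
  · rintro ⟨h1, h2⟩
    refine ⟨h1, ?_⟩
    rintro σ ⟨τ, hτ, rfl⟩
    exact h2 τ hτ
  · rintro ⟨h1, h2⟩
    exact ⟨h1, fun τ hτ => h2 _ ⟨τ, hτ, rfl⟩⟩

variable {p}

theorem hunr_of (hU : InertiaFixedUnram p) :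
    ∀ a ∈ fixedInt p, ‖a‖ < 1 → ∃ b ∈ fixedInt p, a = (p : Kbar p) * b := by
  intro a ha h1
  have hle := hU a ha.2 h1
  refine ⟨(p : Kbar p)⁻¹ * a, ⟨?_, fun τ hτ => ?_⟩, ?_⟩
  · rw [norm_mul, norm_inv, inv_mul_le_iff₀ (norm_pos_iff.mpr (p_ne_zero p)), mul_one]
    exact hle
  · rw [map_mul, map_inv₀, map_natCast, ha.2 τ hτ]
  · rw [mul_inv_cancel_left₀ (p_ne_zero p)]

theorem pid_of (hU : InertiaFixedUnram p) : IsPrincipalIdealRing (fixedInt p) := by
  refine Unram.isPrincipalIdealRing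
    (φ := fun g : {σ : Kbar p ≃ₐ[Zloc p] Kbar p // σ ∈ inertiaSet p} => g.1.toRingEquiv)
    (fixedInt p) (fun a => ?_) (p_ne_zero p) (norm_p_lt_one p) (fun g => map_natCast g.1 p) ?_
  · rw [mem_fixedInt_iff]
    exact ⟨fun h => ⟨h.1, fun g => h.2 g.1 g.2⟩, fun h => ⟨h.1, fun σ hσ => h.2 ⟨σ, hσ⟩⟩⟩
  · intro a ha h1
    exact hU a ha.2 h1

/-- **(CE) F1**, modulo the unramifiedness of the fixed field of inertia. -/
theorem statementF1 (hU : InertiaFixedUnram p) : StatementF1 p := by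
  intro hp2 H _ _ _ _ _ hkill f hf hfix
  refine Points.eq_one_of_isRed0_of_mem p Fact.out hp2 (p_ne_zero p) (norm_p_lt_one p)
    (fixedInt p) (fun r => ⟨norm_algebraMap_le_one p r, fun τ _ => ?_⟩) (fun a ha => ha.1)
    (hunr_of hU) f (hkill f) hf (fun h => ⟨Points.norm_apply_le_one (norm_algebraMap_le_one p) f h,
      fun τ hτ => (hfix τ hτ h).symm⟩)
  exact (τ.restrictScalars (Zloc p)).commutes r

/-- **(CE) F2**, modulo the unramifiedness of the fixed field of inertia. -/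
theorem statementF2 (hU : InertiaFixedUnram p) : StatementF2 p := by
  intro hp2 H _ _ _ _ _ hkill M N h1N hmulN h1M hmulM hNM hNI hMN f hfM hf0
  let M' : Submonoid (Pts (p := p) H) := ⟨⟨M, fun {a b} ha hb => hmulM a ha b hb⟩, h1M⟩
  let N' : Submonoid (Pts (p := p) H) := ⟨⟨N, fun {a b} ha hb => hmulN a ha b hb⟩, h1N⟩
  let C : F2.Ctx (Zloc p) H (Kbar p) p :=
    { hp := Fact.out
      hp2 := hp2
      hp0 := p_ne_zero p
      hpn := norm_p_lt_one p
      hR := norm_algebraMap_le_one p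
      I := inertiaSet p
      hIinv := inertiaSet_inv p
      O₀ := fixedInt p
      hO₀ := mem_fixedInt_iff p
      pid := pid_of hU
      hunr := hunr_of hU
      hkill := hkill
      M := M'
      N := N'
      hNM := hNM
      hNI := by
        rintro σ ⟨τ, hτ, rfl⟩ x hx
        exact hNI τ hτ x hx _ (fun h => rfl)
      hMN := by
        rintro σ ⟨τ, hτ, rfl⟩ x hx
        exact hMN τ hτ x hx _ (fun h => rfl) }
  exact C.main hfM hf0

end Fermat.Agent.TW.CE46.Concrete
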