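/-
Programme TW (S56), brick B5 / (CE) CE-lite, helper46.

`RLCore`: the norm estimates in the convolution ring behind "Raynaud-lite" (RL).
For a point `x ≠ 1` of `Red0` killed by the odd prime `p`, with `γ = x - 1` in the convolution
ring `WithConv (H →ₗ[R] Ω)` and `δ = sup_h ‖γ h‖ = ‖γ h₀‖ ∈ (0, 1)`:

* `‖p‖ ≤ δ ^ (p - 1)`  (normed form of H1);
* `‖(x ^ n) h₀ - ε h₀ - n (x h₀ - ε h₀)‖ ≤ δ ^ 2`  for all `n`.
-/
import Mathlib
import Fermat.Agent.TW.CE46.Points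

set_option autoImplicit false
set_option linter.unusedSectionVars false

namespace Fermat.Agent.TW.CE46.RLCore

open WithConv Coalgebra
open Fermat.Agent.TW.CE46.Points

variable {R H Ω : Type*} [CommRing R] [CommRing H] [HopfAlgebra R H] [Coalgebra.IsCocomm R H]
  [NormedField Ω] [IsUltrametricDist Ω] [Algebra R Ω]

/-- All values of `g` have norm `≤ δ`. -/
def Bd (g : WithConv (H →ₗ[R] Ω)) (δ : ℝ) : Prop := ∀ h : H, ‖g h‖ ≤ δ

theorem Bd.mono {g : WithConv (H →ₗ[R] Ω)} {δ δ' : ℝ} (hg : Bd g δ) (h : δ ≤ δ') : Bd g δ' :=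
  fun x => (hg x).trans h

theorem Bd.zero {δ : ℝ} (hδ : 0 ≤ δ) : Bd (0 : WithConv (H →ₗ[R] Ω)) δ := fun _ => by
  show ‖(0 : Ω)‖ ≤ δ
  rw [norm_zero]; exact hδ

theorem Bd.add {g g' : WithConv (H →ₗ[R] Ω)} {δ : ℝ} (hg : Bd g δ) (hg' : Bd g' δ) :
    Bd (g + g') δ := fun h =>
  (IsUltrametricDist.norm_add_le_max (g h) (g' h)).trans (max_le (hg h) (hg' h))

theorem Bd.neg {g : WithConv (H →ₗ[R] Ω)} {δ : ℝ} (hg : Bd g δ) : Bd (-g) δ := fun h => by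
  show ‖-(g h)‖ ≤ δ
  rw [norm_neg]; exact hg h

theorem Bd.sum {ι : Type*} (s : Finset ι) (f : ι → WithConv (H →ₗ[R] Ω)) {δ : ℝ} (hδ : 0 ≤ δ)
    (hf : ∀ i ∈ s, Bd (f i) δ) : Bd (∑ i ∈ s, f i) δ := by
  classical
  induction s using Finset.induction_on with
  | empty => rw [Finset.sum_empty]; exact Bd.zero hδ
  | insert a s ha ih =>
    rw [Finset.sum_insert ha]
    exact (hf a (Finset.mem_insert_self a s)).add (ih fun i hi => hf i (Finset.mem_insert_of_mem hi))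

theorem Bd.mul {g g' : WithConv (H →ₗ[R] Ω)} {δ δ' : ℝ} (hδ : 0 ≤ δ) (hδ' : 0 ≤ δ')
    (hg : Bd g δ) (hg' : Bd g' δ') : Bd (g * g') (δ * δ') := by
  intro h
  rw [(Coalgebra.Repr.arbitrary R h).convMul_apply]
  refine IsUltrametricDist.norm_sum_le_of_forall_le_of_nonneg (mul_nonneg hδ hδ') ?_
  intro i _
  rw [norm_mul]
  exact mul_le_mul (hg _) (hg' _) (norm_nonneg _) hδ

theorem Bd.natCast_mul (n : ℕ) {g : WithConv (H →ₗ[R] Ω)} {δ : ℝ} (hg : Bd g δ) :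
    Bd ((n : WithConv (H →ₗ[R] Ω)) * g) δ := by
  intro h
  rw [natCast_mul_apply, norm_mul]
  calc ‖(n : Ω)‖ * ‖g h‖ ≤ 1 * ‖g h‖ :=
        mul_le_mul_of_nonneg_right (IsUltrametricDist.norm_natCast_le_one Ω n) (norm_nonneg _)
    _ = ‖g h‖ := one_mul _
    _ ≤ δ := hg h

theorem Bd.mul_natCast (n : ℕ) {g : WithConv (H →ₗ[R] Ω)} {δ : ℝ} (hg : Bd g δ) :
    Bd (g * (n : WithConv (H →ₗ[R] Ω))) δ := by
  rw [mul_comm]; exact hg.natCast_mul n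

theorem Bd.one (hR : ∀ r : R, ‖algebraMap R Ω r‖ ≤ 1) : Bd (1 : WithConv (H →ₗ[R] Ω)) 1 :=
  fun _ => hR _

theorem Bd.pow (hR : ∀ r : R, ‖algebraMap R Ω r‖ ≤ 1) {g : WithConv (H →ₗ[R] Ω)} {δ : ℝ}
    (hδ : 0 ≤ δ) (hg : Bd g δ) (k : ℕ) : Bd (g ^ k) (δ ^ k) := by
  induction k with
  | zero => rw [pow_zero, pow_zero]; exact Bd.one hR
  | succ k ih => rw [pow_succ, pow_succ]; exact ih.mul (pow_nonneg hδ k) hδ hg

/-- `Bd g (δ ^ k)` implies `Bd g (δ ^ 2)` for `k ≥ 2`, `0 ≤ δ ≤ 1`. -/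
theorem Bd.pow_two_of_le {g : WithConv (H →ₗ[R] Ω)} {δ : ℝ} (hδ : 0 ≤ δ) (hδ1 : δ ≤ 1) {k : ℕ}
    (hk : 2 ≤ k) (hg : Bd g (δ ^ k)) : Bd g (δ ^ 2) :=
  hg.mono (pow_le_pow_of_le_one hδ hδ1 hk)

/-- A linear map on a finite module attains the supremum of its norms. -/
theorem exists_max_apply [Module.Finite R H] (hR : ∀ r : R, ‖algebraMap R Ω r‖ ≤ 1)
    (g : WithConv (H →ₗ[R] Ω)) : ∃ h₀ : H, ∀ h : H, ‖g h‖ ≤ ‖g h₀‖ := by
  classical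
  obtain ⟨S, hS⟩ := (Module.finite_def.mp inferInstance : (⊤ : Submodule R H).FG)
  rcases S.eq_empty_or_nonempty with rfl | hne
  · refine ⟨0, fun h => ?_⟩
    have hh : h ∈ Submodule.span R ((∅ : Finset H) : Set H) := by rw [hS]; trivial
    rw [Finset.coe_empty, Submodule.span_empty, Submodule.mem_bot] at hh
    rw [hh]
  · obtain ⟨h₀, -, hmax⟩ := S.exists_max_image (fun s => ‖g s‖) hne
    refine ⟨h₀, fun h => ?_⟩
    have hh : h ∈ Submodule.span R (S : Set H) := by rw [hS]; trivial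
    induction hh using Submodule.span_induction with
    | mem s hs => exact hmax s hs
    | zero =>
      show ‖g.ofConv 0‖ ≤ _
      rw [map_zero, norm_zero]; exact norm_nonneg _
    | add a b _ _ ha hb =>
      show ‖g.ofConv (a + b)‖ ≤ _
      rw [map_add]
      exact (IsUltrametricDist.norm_add_le_max _ _).trans (max_le ha hb)
    | smul r a _ ha =>
      show ‖g.ofConv (r • a)‖ ≤ _
      rw [map_smul, Algebra.smul_def, norm_mul]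
      calc ‖algebraMap R Ω r‖ * ‖g.ofConv a‖ ≤ 1 * ‖g.ofConv a‖ :=
            mul_le_mul_of_nonneg_right (hR r) (norm_nonneg _)
        _ = ‖g.ofConv a‖ := one_mul _
        _ ≤ _ := ha

/-- `(1 + γ) ^ k = 1 + k γ + ρ` with `ρ` bounded by `δ ^ 2`. -/
theorem exists_pow_eq {γ : WithConv (H →ₗ[R] Ω)} {δ : ℝ}
    (hδ : 0 ≤ δ) (hδ1 : δ ≤ 1) (hγ : Bd γ δ) (k : ℕ) :
    ∃ ρ : WithConv (H →ₗ[R] Ω), (1 + γ) ^ k = 1 + (k : WithConv (H →ₗ[R] Ω)) * γ + ρ ∧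
      Bd ρ (δ ^ 2) := by
  induction k with
  | zero => exact ⟨0, by simp, Bd.zero (pow_nonneg hδ 2)⟩
  | succ k ih =>
    obtain ⟨ρ, hρ, hρb⟩ := ih
    refine ⟨ρ + ((k : WithConv (H →ₗ[R] Ω)) * γ + ρ) * γ, ?_, ?_⟩
    · rw [pow_succ, hρ]; push_cast; ring
    · refine hρb.add ?_
      have h1 : Bd ((k : WithConv (H →ₗ[R] Ω)) * γ + ρ) δ :=
        (hγ.natCast_mul k).add (hρb.mono (by nlinarith))
      have := h1.mul hδ hδ hγ
      rwa [← pow_two] at this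

/-- **Normed H1**: if `(1 + γ) ^ p = 1` and `0 < δ = sup ‖γ‖ < 1` is attained then
`‖p‖ ≤ δ ^ (p - 1)`. -/
theorem norm_p_le (p : ℕ) (hp : p.Prime) (hR : ∀ r : R, ‖algebraMap R Ω r‖ ≤ 1)
    (hp0 : (p : Ω) ≠ 0) {γ : WithConv (H →ₗ[R] Ω)} {δ : ℝ} (hδ0 : 0 < δ) (hδ1 : δ < 1)
    (hγ : Bd γ δ) {h₀ : H} (h₀δ : ‖γ h₀‖ = δ) (hpow : (1 + γ) ^ p = 1) :
    ‖(p : Ω)‖ ≤ δ ^ (p - 1) := by
  have hexp := (Commute.one_right γ).add_pow_prime_eq' hp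
  rw [add_comm γ 1, hpow, one_pow] at hexp
  have h2 : 2 ≤ p := hp.two_le
  have hIoo : Finset.Ioo 0 p = insert 1 (Finset.Ioo 1 p) := by
    ext k; simp only [Finset.mem_Ioo, Finset.mem_insert]; omega
  have h1notin : (1 : ℕ) ∉ Finset.Ioo 1 p := by simp
  rw [hIoo, Finset.sum_insert h1notin] at hexp
  simp only [one_pow, mul_one, pow_one, Nat.choose_one_right, Nat.div_self hp.pos,
    Nat.cast_one] at hexp
  set S := ∑ k ∈ Finset.Ioo 1 p, γ ^ k * ((p.choose k / p : ℕ) : WithConv (H →ₗ[R] Ω)) with hS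
  have hSb : Bd S (δ ^ 2) := by
    apply Bd.sum _ _ (pow_nonneg hδ0.le 2)
    intro k hk
    rw [Finset.mem_Ioo] at hk
    exact ((Bd.pow hR hδ0.le hγ k).mul_natCast _).pow_two_of_le hδ0.le hδ1.le hk.1
  have hkey : (p : WithConv (H →ₗ[R] Ω)) * γ = -(γ ^ p + (p : WithConv (H →ₗ[R] Ω)) * S) := by
    linear_combination -hexp
  have e1 : (p : Ω) * γ h₀ = -((γ ^ p) h₀ + (p : Ω) * S h₀) := by
    rw [← natCast_mul_apply, hkey, ← natCast_mul_apply]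
    rfl
  have hpn : 0 < ‖(p : Ω)‖ := norm_pos_iff.mpr hp0
  have e2 : ‖(p : Ω)‖ * δ ≤ max (δ ^ p) (‖(p : Ω)‖ * δ ^ 2) := by
    rw [← h₀δ, ← norm_mul, e1, norm_neg, h₀δ]
    refine (IsUltrametricDist.norm_add_le_max _ _).trans (max_le_max ?_ ?_)
    · exact Bd.pow hR hδ0.le hγ p h₀
    · rw [norm_mul]
      exact mul_le_mul_of_nonneg_left (hSb h₀) hpn.le
  rcases le_max_iff.mp e2 with h | h
  · have e3 : δ ^ p = δ ^ (p - 1) * δ := by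
      rw [← pow_succ]; congr 1; omega
    rw [e3] at h
    exact le_of_mul_le_mul_right h hδ0
  · exfalso
    have h3 : δ ≤ δ ^ 2 := le_of_mul_le_mul_left h hpn
    nlinarith

/-- **The core estimates for RL.**  For a point `x ≠ 1` of `Red0` killed by `p` there are `h₀` and
`δ ∈ (0,1)` with `‖x h₀ - ε h₀‖ = δ`, `‖p‖ ≤ δ ^ (p-1)` and
`‖(x ^ n) h₀ - ε h₀ - n (x h₀ - ε h₀)‖ ≤ δ ^ 2` for all `n`. -/
theorem core [Module.Finite R H] (p : ℕ) (hp : p.Prime) (hR : ∀ r : R, ‖algebraMap R Ω r‖ ≤ 1)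
    (hp0 : (p : Ω) ≠ 0) (x : WithConv (H →ₐ[R] Ω)) (hxp : x ^ p = 1) (hx0 : IsRed0 x)
    (hx1 : x ≠ 1) :
    ∃ (h₀ : H) (δ : ℝ), 0 < δ ∧ δ < 1 ∧ ‖x h₀ - eps (R := R) h₀‖ = δ ∧
      ‖(p : Ω)‖ ≤ δ ^ (p - 1) ∧
      ∀ n : ℕ, ‖(x ^ n) h₀ - eps (R := R) h₀ - (n : Ω) * (x h₀ - eps (R := R) h₀)‖ ≤ δ ^ 2 := by
  set γ : WithConv (H →ₗ[R] Ω) := lin x - 1 with hγdef
  have hγapp : ∀ h : H, γ h = x h - eps (R := R) h := fun h => rfl
  obtain ⟨h₀, hmax⟩ := exists_max_apply hR γ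
  have hlin : lin x = 1 + γ := by rw [hγdef]; ring
  have hδ0 : 0 < ‖γ h₀‖ := by
    rw [norm_pos_iff]
    intro h0
    apply hx1
    apply lin_injective
    rw [lin_one, hlin]
    have : γ = 0 := by
      apply WithConv.ext
      apply LinearMap.ext
      intro h
      have := hmax h
      rw [h0, norm_zero] at this
      exact norm_le_zero_iff.mp this
    rw [this, add_zero]
  have hδ1 : ‖γ h₀‖ < 1 := by rw [hγapp]; exact hx0 h₀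
  have hγb : Bd γ ‖γ h₀‖ := hmax
  have hpow : (1 + γ) ^ p = 1 := by rw [← hlin, ← lin_pow, hxp, lin_one]
  refine ⟨h₀, ‖γ h₀‖, hδ0, hδ1, by rw [hγapp], norm_p_le p hp hR hp0 hδ0 hδ1 hγb rfl hpow, ?_⟩
  intro n
  obtain ⟨ρ, hρ, hρb⟩ := exists_pow_eq hδ0.le hδ1.le hγb n
  have e1 : (x ^ n) h₀ - eps (R := R) h₀ - (n : Ω) * (x h₀ - eps (R := R) h₀) = ρ h₀ := by
    have h1 : (x ^ n) h₀ = (lin x ^ n) h₀ := by rw [← lin_pow]; rfl
    rw [h1, hlin, hρ, ← hγapp, ← natCast_mul_apply]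
    show (1 : WithConv (H →ₗ[R] Ω)) h₀ + ((n : WithConv (H →ₗ[R] Ω)) * γ) h₀ + ρ h₀
      - eps (R := R) h₀ - ((n : WithConv (H →ₗ[R] Ω)) * γ) h₀ = ρ h₀
    have : (1 : WithConv (H →ₗ[R] Ω)) h₀ = eps (R := R) (Ω := Ω) h₀ := rfl
    rw [this]; ring
  rw [e1]
  exact hρb h₀

end Fermat.Agent.TW.CE46.RLCore
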