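/-
Programme TW (S56), brick B5 / (CE) CE-lite, helper46.

`RL`: "Raynaud-lite" at the local model of `TW/B5/Iface.lean`:

  `statementRL : Concrete.InertiaFixedUnram p → Iface.StatementRL p`

A non-trivial point `f` of `Red0`, killed by `p`, which is an eigenvector of inertia
(`τ f = f ^ a τ`) has eigencharacter the mod-`p` cyclotomic character.
Inputs: the norm estimates of `RLCore`, the unramifiedness of the fixed field of inertia, and the
tame-symbol facts (T4), (T5) of the local Galois toolkit (`LG83T`).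
-/
import Mathlib
import Fermat.Agent.TW.B5.Iface
import Fermat.Agent.TW.B5.IfaceLG
import Fermat.Agent.TW.B5.LG83T
import Fermat.Agent.TW.CE46.Concrete
import Fermat.Agent.TW.CE46.RLCore

set_option autoImplicit false
set_option linter.unusedSectionVars false

namespace Fermat.Agent.TW.CE46.RL

open Fermat.Agent.TW.B5.Iface Fermat.Agent.TW.B5.IfaceLG
open Fermat.Agent.TW.B5
open Fermat.Agent.TW.CE46 Fermat.Agent.TW.CE46.Concrete

variable {p : ℕ} [hp : Fact p.Prime]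

/-! ### The norm of `ζ - 1` -/

theorem norm_root_eq_one {ζ : Kbar p} (hζ : ζ ^ p = 1) : ‖ζ‖ = 1 := by
  have h1 : ‖ζ‖ ^ p = 1 := by rw [← norm_pow, hζ, norm_one]
  exact (pow_eq_one_iff_of_nonneg (norm_nonneg _) hp.out.ne_zero).mp h1

theorem isPrimitiveRoot_of {ζ : Kbar p} (hζ : ζ ^ p = 1) (hζ1 : ζ ≠ 1) : IsPrimitiveRoot ζ p :=
  IsPrimitiveRoot.iff_orderOf.2 (orderOf_eq_prime hζ hζ1)

/-- all primitive `p`-th roots of unity are at the same distance from `1`. -/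
theorem norm_sub_one_eq {ζ μ : Kbar p} (hζ : IsPrimitiveRoot ζ p) (hμ : IsPrimitiveRoot μ p) :
    ‖μ - 1‖ = ‖ζ - 1‖ := by
  obtain ⟨i, -, hi⟩ := hζ.eq_pow_of_pow_eq_one hμ.pow_eq_one
  obtain ⟨j, -, hj⟩ := hμ.eq_pow_of_pow_eq_one hζ.pow_eq_one
  apply le_antisymm
  · rw [← hi]; exact LG83T.norm_pow_sub_one_le p (norm_root_eq_one hζ.pow_eq_one) i
  · rw [← hj]; exact LG83T.norm_pow_sub_one_le p (norm_root_eq_one hμ.pow_eq_one) j

/-- `‖ζ - 1‖ ^ (p - 1) = ‖p‖` for a non-trivial `p`-th root of unity `ζ`. -/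
theorem norm_root_sub_one_pow {ζ : Kbar p} (hζ : ζ ^ p = 1) (hζ1 : ζ ≠ 1) :
    ‖ζ - 1‖ ^ (p - 1) = ‖(p : Kbar p)‖ := by
  have hprim := isPrimitiveRoot_of hζ hζ1
  have h1 : (p : Kbar p) = ∏ μ ∈ primitiveRoots p (Kbar p), (1 - μ) := by
    have h2 := Polynomial.cyclotomic_eq_prod_X_sub_primitiveRoots hprim
    have h3 := congrArg (Polynomial.eval 1) h2
    rw [Polynomial.eval_one_cyclotomic_prime, Polynomial.eval_prod] at h3
    simpa using h3
  rw [h1, norm_prod]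
  have h4 : ∀ μ ∈ primitiveRoots p (Kbar p), ‖1 - μ‖ = ‖ζ - 1‖ := by
    intro μ hμ
    rw [mem_primitiveRoots hp.out.pos] at hμ
    rw [← norm_neg, neg_sub]
    exact norm_sub_one_eq hprim hμ
  rw [Finset.prod_congr rfl h4, Finset.prod_const, hprim.card_primitiveRoots,
    Nat.totient_prime hp.out]

/-! ### Integers of norm `< 1` -/

theorem dvd_of_norm_natCast_sub_lt_one {a b : ℕ} (h : ‖(a : Kbar p) - (b : Kbar p)‖ < 1) :
    a ≡ b [MOD p] := by
  have h1 : (a : Kbar p) - (b : Kbar p) = algebraMap ℚ_[p] (Kbar p) (((a : ℤ) - (b : ℤ) : ℤ) : ℚ_[p]) := by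
    push_cast
    simp
  have h2 : ‖algebraMap ℚ_[p] (Kbar p) (((a : ℤ) - (b : ℤ) : ℤ) : ℚ_[p])‖ =
      ‖((((a : ℤ) - (b : ℤ) : ℤ)) : ℚ_[p])‖ := PadicAlgCl.norm_extends p _
  rw [h1, h2, Padic.norm_intCast_lt_one_iff] at h
  have h3 : (b : ℤ) ≡ (a : ℤ) [ZMOD (p : ℤ)] := (Int.modEq_iff_dvd).mpr h
  exact (Int.natCast_modEq_iff.mp h3).symm

theorem pow_eq_pow_of_modEq {ζ : Kbar p} (hζ : ζ ^ p = 1) {a b : ℕ} (h : a ≡ b [MOD p]) :
    ζ ^ a = ζ ^ b := by
  have key : ∀ n : ℕ, ζ ^ n = ζ ^ (n % p) := by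
    intro n
    conv_lhs => rw [← Nat.mod_add_div n p, pow_add, pow_mul, hζ, one_pow, mul_one]
  rw [key a, key b, h]

/-! ### The main statement -/

/-- **(CE) RL (Raynaud-lite)**, modulo the unramifiedness of the fixed field of inertia. -/
theorem statementRL (hU : Concrete.InertiaFixedUnram p) : StatementRL p := by
  intro hp2 H _ _ _ _ _ hkill f hf hf1 a ha τ₀ hτ₀
  have hR := norm_algebraMap_le_one p
  have hp2' : 2 ≤ p := hp.out.two_le
  obtain ⟨h₀, δ, hδ0, hδ1, hc1, hpδ, hcn⟩ :=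
    RLCore.core p hp.out hR (p_ne_zero p) f (hkill f) hf hf1
  -- the elements `c n`
  set e₀ : Kbar p := Points.eps (R := Zloc p) h₀ with he₀
  set c : ℕ → Kbar p := fun n => (f ^ n) h₀ - e₀ with hc
  have hc_one : c 1 = f h₀ - e₀ := by simp only [hc, pow_one]
  have hfpow : ∀ n : ℕ, f ^ n = f ^ (n % p) := by
    intro n
    conv_lhs => rw [← Nat.mod_add_div n p, pow_add, pow_mul, hkill f, one_pow, mul_one]
  have hc_mod : ∀ n : ℕ, c n = c (n % p) := fun n => by simp only [hc]; rw [hfpow n]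
  -- Galois action on the `c n`
  have hgal : ∀ τ : Gp p, IsInertial p τ → ∀ n : ℕ, τ (c n) = c (a τ * n) := by
    intro τ hτ n
    have h1 : Points.act (τ.restrictScalars (Zloc p)) f = f ^ a τ := by
      apply WithConv.ext
      apply AlgHom.ext
      intro h
      exact (ha τ hτ h).symm
    have h2 : Points.act (τ.restrictScalars (Zloc p)) (f ^ n) = f ^ (a τ * n) := by
      rw [map_pow, h1, pow_mul]
    have h3 : τ ((f ^ n) h₀) = (f ^ (a τ * n)) h₀ := by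
      rw [← h2]; rfl
    have h4 : τ e₀ = e₀ := (τ.restrictScalars (Zloc p)).commutes _
    simp only [hc]
    rw [map_sub, h3, h4]
  -- `p ∤ a τ`
  have hpa : ∀ τ : Gp p, IsInertial p τ → ¬ p ∣ a τ := by
    intro τ hτ hdvd
    apply hf1
    obtain ⟨k, hk⟩ := hdvd
    have h1 : f ^ a τ = 1 := by rw [hk, pow_mul, hkill f, one_pow]
    apply WithConv.ext
    apply AlgHom.ext
    intro h
    have h2 := ha τ hτ h
    rw [h1] at h2
    have h3 : τ (Points.eps (R := Zloc p) h) = Points.eps (R := Zloc p) h :=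
      (τ.restrictScalars (Zloc p)).commutes _
    have h4 : τ (f h) = τ (Points.eps (R := Zloc p) h) := by rw [h3, ← h2]; rfl
    exact τ.injective h4
  -- norms of the `c n`
  have hcnorm : ∀ n : ℕ, ¬ p ∣ n → ‖c n‖ = δ := by
    intro n hn
    have h1 : c n = (n : Kbar p) * c 1 + (c n - (n : Kbar p) * c 1) := by ring
    have h2 : ‖(n : Kbar p) * c 1‖ = δ := by
      rw [norm_mul, LG83T.norm_natCast_eq_one p hn, one_mul, hc_one]; exact hc1
    have h3 : ‖c n - (n : Kbar p) * c 1‖ ≤ δ ^ 2 := by rw [hc_one]; exact hcn n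
    have h4 : ‖c n - (n : Kbar p) * c 1‖ < ‖(n : Kbar p) * c 1‖ := by rw [h2]; nlinarith
    rw [h1, LG83T.norm_add_eq_left p h4, h2]
  -- the norm `N` of `c 1`
  set N : Kbar p := ∏ u : (ZMod p)ˣ, c ((u : ZMod p).val) with hN
  have hNnorm : ‖N‖ = δ ^ (p - 1) := by
    rw [hN, norm_prod]
    have : ∀ u ∈ (Finset.univ : Finset (ZMod p)ˣ), ‖c ((u : ZMod p).val)‖ = δ := by
      intro u _
      apply hcnorm
      intro hdvd
      have h1 : (((u : ZMod p).val : ℕ) : ZMod p) = 0 := (ZMod.natCast_eq_zero_iff _ _).mpr hdvd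
      rw [ZMod.natCast_zmod_val] at h1
      exact u.ne_zero h1
    rw [Finset.prod_congr rfl this, Finset.prod_const, Finset.card_univ, ZMod.card_units]
  have hNfix : ∀ τ : Gp p, IsInertial p τ → τ N = N := by
    intro τ hτ
    have hcop : (a τ).Coprime p :=
      ((Nat.Prime.coprime_iff_not_dvd hp.out).mpr (hpa τ hτ)).symm
    set au : (ZMod p)ˣ := ZMod.unitOfCoprime (a τ) hcop with hau
    rw [hN, map_prod]
    rw [← Equiv.prod_comp (Equiv.mulLeft au) (fun u : (ZMod p)ˣ => c ((u : ZMod p).val))]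
    apply Finset.prod_congr rfl
    intro u _
    rw [hgal τ hτ, hc_mod]
    congr 1
    show _ = (((au * u : (ZMod p)ˣ) : ZMod p)).val
    rw [Units.val_mul, hau, ZMod.coe_unitOfCoprime, ZMod.val_mul, ZMod.val_natCast,
      Nat.mod_mul_mod]
  -- `δ ^ (p - 1) = ‖p‖`
  have hδpow : δ ^ (p - 1) = ‖(p : Kbar p)‖ := by
    apply le_antisymm _ hpδ
    rw [← hNnorm]
    apply hU N hNfix
    rw [hNnorm]
    exact pow_lt_one₀ hδ0.le hδ1 (by omega)
  -- conclusion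
  intro ζ hζ
  by_cases hζ1 : ζ = 1
  · rw [hζ1, map_one, one_pow]
  have hζδ : ‖ζ - 1‖ = δ := by
    have h1 := norm_root_sub_one_pow hζ hζ1
    rw [← hδpow] at h1
    exact (pow_left_inj₀ (norm_nonneg _) hδ0.le (by omega)).mp h1
  have hc1ne : c 1 ≠ 0 := by
    rw [← norm_pos_iff, hc_one, hc1]; exact hδ0
  have hA : ‖τ₀ (c 1) / c 1 - (a τ₀ : Kbar p)‖ < 1 := by
    rw [hgal τ₀ hτ₀ 1, mul_one]
    have h1 : c (a τ₀) / c 1 - (a τ₀ : Kbar p) = (c (a τ₀) - (a τ₀ : Kbar p) * c 1) / c 1 := by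
      field_simp
    have h2 : ‖c (a τ₀) - (a τ₀ : Kbar p) * c 1‖ ≤ δ ^ 2 := by rw [hc_one]; exact hcn (a τ₀)
    have h3 : ‖c 1‖ = δ := by rw [hc_one]; exact hc1
    rw [h1, norm_div, h3]
    calc ‖c (a τ₀) - (a τ₀ : Kbar p) * c 1‖ / δ ≤ δ ^ 2 / δ :=
          div_le_div_of_nonneg_right h2 hδ0.le
      _ = δ := by field_simp
      _ < 1 := hδ1
  have hprim := isPrimitiveRoot_of hζ hζ1
  have hτζ : (τ₀ ζ) ^ p = 1 := by rw [← map_pow, hζ, map_one]
  obtain ⟨i, -, hi⟩ := hprim.eq_pow_of_pow_eq_one hτζ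
  have hB : ‖τ₀ (ζ - 1) / (ζ - 1) - (i : Kbar p)‖ < 1 :=
    LG83T.cycloTameSymbol p τ₀ ζ i hζ hζ1 hi.symm
  have hC : ‖τ₀ (c 1) / c 1 - τ₀ (ζ - 1) / (ζ - 1)‖ < 1 :=
    LG83T.tameSymbolNorm p τ₀ hτ₀ (c 1) (ζ - 1) hc1ne (by rw [hζδ, hc_one, hc1])
  have hD : ‖(a τ₀ : Kbar p) - (i : Kbar p)‖ < 1 := by
    have e1 : (a τ₀ : Kbar p) - (i : Kbar p) = -(τ₀ (c 1) / c 1 - (a τ₀ : Kbar p)) +
        ((τ₀ (c 1) / c 1 - τ₀ (ζ - 1) / (ζ - 1)) + (τ₀ (ζ - 1) / (ζ - 1) - (i : Kbar p))) := by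
      ring
    rw [e1]
    exact LG83T.norm_add_lt p (by rw [norm_neg]; exact hA) (LG83T.norm_add_lt p hC hB)
  rw [← hi]
  exact (pow_eq_pow_of_modEq hζ (dvd_of_norm_natCast_sub_lt_one hD)).symm

end Fermat.Agent.TW.CE46.RL
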