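/-
Programme TW (S56), brick B5 / (CE) CE-lite, helper46.

`Final`: the three (CE) statements of `TW/B5/Iface.lean` from the local Galois toolkit
(`TW/B5/IfaceLG.lean`): the only toolkit field used is (LG-U1) `IfaceLG.InertiaFixedUnram p`
(the tame facts (T4), (T5) are cited from `LG83T`).

  `statementF1 : IfaceLG.InertiaFixedUnram p → Iface.StatementF1 p`
  `statementF2 : IfaceLG.InertiaFixedUnram p → Iface.StatementF2 p`
  `statementRL : IfaceLG.InertiaFixedUnram p → Iface.StatementRL p`

and the same three with hypothesis `IfaceLG.Toolkit p`.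
-/
import Mathlib
import Fermat.Agent.TW.B5.Iface
import Fermat.Agent.TW.B5.IfaceLG
import Fermat.Agent.TW.CE46.Concrete
import Fermat.Agent.TW.CE46.RL

set_option autoImplicit false

namespace Fermat.Agent.TW.CE46.Final

open Fermat.Agent.TW.B5
open Fermat.Agent.TW.B5.Iface

variable {p : ℕ} [hp : Fact p.Prime]

/-- The toolkit form (LG-U1) of "the fixed field of inertia is unramified" implies the norm form
used by the (CE) proofs. -/
theorem inertiaFixedUnram_of_toolkit (hU : IfaceLG.InertiaFixedUnram p) :
    Concrete.InertiaFixedUnram p := by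
  intro x hx hx1
  by_cases hx0 : x = 0
  · rw [hx0, norm_zero]; exact norm_nonneg _
  obtain ⟨K₁, -, hK₁, hxK⟩ := hU x hx
  obtain ⟨n, hn⟩ := hK₁ x hxK hx0
  have hp1 : (1 : ℝ) < (p : ℝ) := by exact_mod_cast hp.out.one_lt
  rw [hn] at hx1 ⊢
  have hn0 : n < 0 := (zpow_lt_one_iff_right₀ hp1).mp hx1
  rw [Concrete.norm_p, ← zpow_neg_one]
  exact zpow_le_zpow_right₀ hp1.le (by omega)

theorem statementF1 (hU : IfaceLG.InertiaFixedUnram p) : StatementF1 p :=
  Concrete.statementF1 (inertiaFixedUnram_of_toolkit hU)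

theorem statementF2 (hU : IfaceLG.InertiaFixedUnram p) : StatementF2 p :=
  Concrete.statementF2 (inertiaFixedUnram_of_toolkit hU)

theorem statementRL (hU : IfaceLG.InertiaFixedUnram p) : StatementRL p :=
  RL.statementRL (inertiaFixedUnram_of_toolkit hU)

theorem statementF1_of_toolkit (hLG : IfaceLG.Toolkit p) : StatementF1 p :=
  statementF1 hLG.inertiaFixedUnram

theorem statementF2_of_toolkit (hLG : IfaceLG.Toolkit p) : StatementF2 p :=
  statementF2 hLG.inertiaFixedUnram

theorem statementRL_of_toolkit (hLG : IfaceLG.Toolkit p) : StatementRL p :=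
  statementRL hLG.inertiaFixedUnram

end Fermat.Agent.TW.CE46.Final
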