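/-
Programme TW (S56), brick B5-LG (local Galois toolkit), hedge copy by helper46:
(LG-U5) `IfaceLG.InertiaSurjective p`: inertia surjects onto the inertia groups of the finite levels.

Route:
* `exists_fixing_extension` (pure Galois theory): `E` finite normal, `M` any intermediate field of a
  Galois extension `Ω/K`; an automorphism `g` fixing `E ⊓ M` pointwise agrees on `E` with an
  automorphism fixing `M` pointwise;
* `Kur p` : the union of the unramified cyclotomic fields `ℚ_p(μ_m)`, `p ∤ m`;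
* `fixes_of_unram` (rigidity): an automorphism acting trivially on the residue field of a finite
  unramified `K₁` fixes `K₁` pointwise;
* an automorphism fixing `Kur p` pointwise is inertial (`LG83B.isInertial_of_fixes_roots`).
-/
import Mathlib
import Fermat.Agent.TW.B5.IfaceLG
import Fermat.Agent.TW.B5.LG83B
import Fermat.Agent.TW.B5.LG83U
import Fermat.Agent.TW.B5.LG83W

set_option autoImplicit false
set_option linter.unusedSectionVars false
set_option linter.style.haveILetI false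

namespace Fermat.Agent.TW.CE46.U5

section General

variable {K Ω : Type*} [Field K] [Field Ω] [Algebra K Ω] [IsGalois K Ω]

/-- `E` finite normal, `M` any intermediate field: an automorphism fixing `E ⊓ M` pointwise agrees
on `E` with an automorphism fixing `M` pointwise. -/
theorem exists_fixing_extension (E M : IntermediateField K Ω) [FiniteDimensional K E] [Normal K E]
    (g : Ω ≃ₐ[K] Ω) (hg : ∀ x ∈ E ⊓ M, g x = x) :
    ∃ τ : Ω ≃ₐ[K] Ω, (∀ x ∈ M, τ x = x) ∧ ∀ x ∈ E, τ x = g x := by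
  set r : (Ω ≃ₐ[K] Ω) →* (E ≃ₐ[K] E) := AlgEquiv.restrictNormalHom E with hr
  set G' : Subgroup (E ≃ₐ[K] E) := (M.fixingSubgroup).map r with hG'
  have key : r g ∈ G' := by
    rw [← IntermediateField.fixingSubgroup_fixedField G', IntermediateField.mem_fixingSubgroup_iff]
    intro x hx
    have hxM : (x : Ω) ∈ M := by
      rw [← InfiniteGalois.fixedField_fixingSubgroup M, IntermediateField.mem_fixedField_iff]
      intro σ hσ
      have h1 : r σ ∈ G' := Subgroup.mem_map_of_mem r hσ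
      have h2 : r σ x = x := (IntermediateField.mem_fixedField_iff G' x).mp hx (r σ) h1
      have h3 : ((r σ x : E) : Ω) = σ x := AlgEquiv.restrictNormal_commutes σ E x
      rw [← h3, h2]
    have h5 := hg _ (⟨x.2, hxM⟩ : (x : Ω) ∈ E ⊓ M)
    apply Subtype.ext
    rw [← h5]
    exact AlgEquiv.restrictNormal_commutes g E x
  obtain ⟨τ, hτM, hτ⟩ := key
  refine ⟨τ, fun x hx => ?_, fun x hx => ?_⟩
  · exact (IntermediateField.mem_fixingSubgroup_iff M τ).mp hτM x hx
  · have h1 : ((r τ ⟨x, hx⟩ : E) : Ω) = τ x := AlgEquiv.restrictNormal_commutes τ E ⟨x, hx⟩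
    have h2 : ((r g ⟨x, hx⟩ : E) : Ω) = g x := AlgEquiv.restrictNormal_commutes g E ⟨x, hx⟩
    rw [← h1, ← h2, hτ]

end General

section Concrete

open Fermat.Agent.TW.B5.Iface Fermat.Agent.TW.B5.IfaceLG Fermat.Agent.TW.B5

variable (p : ℕ) [Fact p.Prime]

/-- **Rigidity**: an automorphism acting trivially on the residue field of a finite unramified
extension `K₁` of `ℚ_p` fixes `K₁` pointwise. -/
theorem fixes_of_unram {K₁ : IntermediateField ℚ_[p] (Kbar p)} [FiniteDimensional ℚ_[p] K₁]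
    (hur : IsUnramifiedField p K₁) (g : Gp p) (hg : ∀ x ∈ K₁, ‖x‖ ≤ 1 → ‖g x - x‖ < 1) :
    ∀ x ∈ K₁, g x = x := by
  obtain ⟨m, hm, hT⟩ := LG83B.exists_teichmuller p K₁
  have hm0 : m ≠ 0 := fun h => hm (h ▸ dvd_zero p)
  have hp1 : (1 : ℝ) < p := by exact_mod_cast (Fact.out : p.Prime).one_lt
  have hp0 : (0 : ℝ) < p := by linarith
  have hroot : ∀ c ∈ K₁, c ^ m = 1 → g c = c := by
    intro c hcK hc
    have h1 : ‖c‖ = 1 := by
      have h2 : ‖c‖ ^ m = 1 := by rw [← norm_pow, hc, norm_one]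
      exact (pow_eq_one_iff_of_nonneg (norm_nonneg _) hm0).1 h2
    refine LG83B.eq_of_norm_sub_lt_one p hm ?_ hc (hg c hcK h1.le)
    rw [← map_pow, hc, map_one]
  have key : ∀ n : ℕ, ∀ x ∈ K₁, ‖x‖ ≤ 1 → ‖g x - x‖ ≤ ((p : ℝ)⁻¹) ^ n := by
    intro n
    induction n with
    | zero =>
      intro x hx hx1
      rw [pow_zero]
      exact (hg x hx hx1).le
    | succ n ih =>
      intro x hx hx1
      obtain ⟨c, hcK, hc, hxc⟩ := hT x hx hx1
      have hgc : g c = c := by
        rcases hc with rfl | hc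
        · exact map_zero g
        · exact hroot c hcK hc
      have hy := LG83U.norm_div_p_le_one p hur (K₁.sub_mem hx hcK) hxc
      have hyK : (x - c) / (p : Kbar p) ∈ K₁ := K₁.div_mem (K₁.sub_mem hx hcK) (natCast_mem K₁ p)
      have h1 := ih _ hyK hy
      have h2 : g x - x = (p : Kbar p) * (g ((x - c) / (p : Kbar p)) - (x - c) / (p : Kbar p)) := by
        rw [map_div₀, map_sub, hgc, map_natCast]
        field_simp [LG83U.p_ne_zero p]
        ring
      rw [h2, norm_mul, LG83U.norm_p, pow_succ, mul_comm]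
      exact mul_le_mul_of_nonneg_right h1 (inv_nonneg.2 hp0.le)
  have hint : ∀ x ∈ K₁, ‖x‖ ≤ 1 → g x = x := by
    intro x hx hx1
    by_contra hne
    have hpos : 0 < ‖g x - x‖ := norm_pos_iff.2 (sub_ne_zero.2 hne)
    obtain ⟨n, hn⟩ := exists_pow_lt_of_lt_one hpos (inv_lt_one_of_one_lt₀ hp1)
    exact absurd (key n x hx hx1) (not_le.2 hn)
  intro x hx
  by_cases hx1 : ‖x‖ ≤ 1
  · exact hint x hx hx1
  · have hx1 := not_le.1 hx1
    have h1 : ‖x⁻¹‖ ≤ 1 := by
      rw [norm_inv]
      exact inv_le_one_of_one_le₀ hx1.le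
    have h2 := hint x⁻¹ (K₁.inv_mem hx) h1
    rw [map_inv₀] at h2
    exact inv_injective h2

/-- The maximal unramified extension of `ℚ_p` in `K̄`, as the (directed) union of the `ℚ_p(μ_m)`,
`p ∤ m`. -/
noncomputable def Kur : IntermediateField ℚ_[p] (Kbar p) :=
  ⨆ m : {m : ℕ // ¬ p ∣ m}, LG83W.muField p m.1

theorem muField_mono {m m' : ℕ} (h : m ∣ m') : LG83W.muField p m ≤ LG83W.muField p m' := by
  apply IntermediateField.adjoin.mono
  intro ζ hζ
  obtain ⟨k, rfl⟩ := h
  show ζ ^ (m * k) = 1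
  have hζ' : ζ ^ m = 1 := hζ
  rw [pow_mul, hζ', one_pow]

theorem mem_Kur {x : Kbar p} : x ∈ Kur p ↔ ∃ m : ℕ, ¬ p ∣ m ∧ x ∈ LG83W.muField p m := by
  haveI : Nonempty {m : ℕ // ¬ p ∣ m} := ⟨⟨1, (Fact.out : p.Prime).one_lt.ne' ∘ Nat.dvd_one.mp⟩⟩
  have hdir : Directed (· ≤ ·) (fun m : {m : ℕ // ¬ p ∣ m} => LG83W.muField p m.1) := by
    intro a b
    refine ⟨⟨a.1 * b.1, fun h => ?_⟩, muField_mono p (dvd_mul_right _ _),
      muField_mono p (dvd_mul_left _ _)⟩
    rcases (Fact.out : p.Prime).dvd_mul.mp h with h | h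
    · exact a.2 h
    · exact b.2 h
  rw [Kur, ← SetLike.mem_coe, IntermediateField.coe_iSup_of_directed hdir, Set.mem_iUnion]
  constructor
  · rintro ⟨m, hm⟩
    exact ⟨m.1, m.2, hm⟩
  · rintro ⟨m, hm, hx⟩
    exact ⟨⟨m, hm⟩, hx⟩

/-- **(LG-U5)** Inertia surjects onto the inertia groups of the finite levels. -/
theorem inertiaSurjective : InertiaSurjective p := by
  intro E hE hEn g hg
  haveI := hE
  haveI : Normal ℚ_[p] E := LG83B.normal_of_isNormalField p hEn
  have h1 : ∀ x ∈ E ⊓ Kur p, g x = x := by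
    rintro x ⟨hxE, hxK⟩
    obtain ⟨m, hm, hxm⟩ := (mem_Kur p).mp hxK
    haveI : FiniteDimensional ℚ_[p] (E ⊓ LG83W.muField p m : IntermediateField ℚ_[p] (Kbar p)) :=
      FiniteDimensional.of_injective
        (IntermediateField.inclusion (inf_le_left : E ⊓ LG83W.muField p m ≤ E)).toLinearMap
        (IntermediateField.inclusion_injective (inf_le_left : E ⊓ LG83W.muField p m ≤ E))
    have hur : IsUnramifiedField p (E ⊓ LG83W.muField p m) := fun y hy hy0 =>
      LG83W.isUnramifiedField_muField p hm y hy.2 hy0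
    exact fixes_of_unram p hur g (fun y hy hy1 => hg y hy.1 hy1) x ⟨hxE, hxm⟩
  obtain ⟨τ, hτK, hτE⟩ := exists_fixing_extension E (Kur p) g h1
  refine ⟨τ, LG83B.isInertial_of_fixes_roots p (fun m ζ hm hζ => hτK ζ ?_), hτE⟩
  exact (mem_Kur p).mpr ⟨m, hm, LG83W.mem_muField p hζ⟩

end Concrete

end Fermat.Agent.TW.CE46.U5
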