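/-
Programme TW (S56), bricks B5-LG / B5-CE, helper46: ASSEMBLY.

* `toolkit : IfaceLG.Toolkit p` — the whole local Galois toolkit, UNCONDITIONAL, assembled from
  helper83's `LG83B/T/U/V` and the hedge copy `CE46.U5.inertiaSurjective` of (LG-U5);
* `statementF1 / statementF2 / statementRL : Iface.StatementF1/F2/RL p` — the three (CE) statements,
  UNCONDITIONAL.
-/
import Mathlib
import Fermat.Agent.TW.B5.Iface
import Fermat.Agent.TW.B5.IfaceLG
import Fermat.Agent.TW.B5.LG83B
import Fermat.Agent.TW.B5.LG83T
import Fermat.Agent.TW.B5.LG83U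
import Fermat.Agent.TW.B5.LG83V
import Fermat.Agent.TW.CE46.U5
import Fermat.Agent.TW.CE46.Final

set_option autoImplicit false

namespace Fermat.Agent.TW.CE46.Toolkit

open Fermat.Agent.TW.B5
open Fermat.Agent.TW.B5.Iface

variable (p : ℕ) [Fact p.Prime]

/-- (LG-U5), unconditional. -/
theorem inertiaSurjective : IfaceLG.InertiaSurjective p := U5.inertiaSurjective p

/-- (LG-U1), unconditional. -/
theorem inertiaFixedUnram : IfaceLG.InertiaFixedUnram p :=
  LG83V.inertiaFixedUnram_of p (inertiaSurjective p)

/-- (LG-U4), unconditional. -/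
theorem generatedByFrob : IfaceLG.GeneratedByFrob p :=
  LG83V.generatedByFrob_of p (inertiaSurjective p)

/-- **The local Galois toolkit**, unconditional. -/
theorem toolkit : IfaceLG.Toolkit p where
  inertiaFixedUnram := inertiaFixedUnram p
  unramFixedByInertia := LG83U.unramFixedByInertia p
  existsFrobLift := LG83B.existsFrobLift p
  generatedByFrob := generatedByFrob p
  inertiaSurjective := inertiaSurjective p
  frobConjWild := LG83T.frobConjWild p
  wildPPower := LG83T.wildPPower p
  commutatorWild := LG83T.commutatorWild p
  tameSymbolNorm := LG83T.tameSymbolNorm p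
  cycloTameSymbol := LG83T.cycloTameSymbol p

/-- **(CE) F1**, unconditional. -/
theorem statementF1 : StatementF1 p := Final.statementF1 (inertiaFixedUnram p)

/-- **(CE) F2**, unconditional. -/
theorem statementF2 : StatementF2 p := Final.statementF2 (inertiaFixedUnram p)

/-- **(CE) RL**, unconditional. -/
theorem statementRL : StatementRL p := Final.statementRL (inertiaFixedUnram p)

end Fermat.Agent.TW.CE46.Toolkit
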