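/-
Programme TW (S56), brick B5 / (CE) CE-lite, helper46.

`H1`: the uniqueness lemma for `p`-th roots of unity close to `1` ("H1" of the B5 masterplan),
in the purely `p`-adic divisibility form used by F1 and F2:

  `D` a ring without `p`-torsion and `p`-adically separated, `p` odd, `c ^ p = 1`,
  `c - 1 ∈ p D`  ⟹  `c = 1`.
-/
import Mathlib

set_option autoImplicit false

namespace Fermat.Agent.TW.CE46.H1

open Finset

variable {D : Type*} [Ring D]

/-- Key step: if `γ = p ^ n * e` with `n ≥ 1` and `(1 + γ) ^ p = 1` then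
`p * γ = p ^ (2 n + 1) * t` for some `t`. -/
theorem exists_mul_eq_of_add_pow_eq_one (p : ℕ) (hp : p.Prime) (hp2 : p ≠ 2) (n : ℕ) (hn : 1 ≤ n)
    (γ e : D) (hγ : γ = (p : D) ^ n * e) (h : (1 + γ) ^ p = 1) :
    ∃ t : D, (p : D) * γ = (p : D) ^ (2 * n + 1) * t := by
  have hp3 : 3 ≤ p := by
    have := hp.two_le
    omega
  -- `p` is central
  have hcomm : ∀ (m : ℕ) (d : D), d * (p : D) ^ m = (p : D) ^ m * d := fun m d =>
    ((Nat.cast_commute p d).pow_left m).eq.symm
  have hγpow : ∀ k : ℕ, γ ^ k = (p : D) ^ (n * k) * e ^ k := by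
    intro k
    induction k with
    | zero => simp
    | succ k ih =>
      rw [pow_succ, ih, hγ, Nat.mul_succ, pow_add, pow_succ e]
      calc (p : D) ^ (n * k) * e ^ k * ((p : D) ^ n * e)
          = (p : D) ^ (n * k) * (e ^ k * (p : D) ^ n) * e := by noncomm_ring
        _ = (p : D) ^ (n * k) * ((p : D) ^ n * e ^ k) * e := by rw [hcomm]
        _ = (p : D) ^ (n * k) * (p : D) ^ n * (e ^ k * e) := by noncomm_ring
  -- expand the binomial
  have hexp := (Commute.one_right γ).add_pow p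
  simp only [one_pow, mul_one] at hexp
  rw [add_comm γ 1] at hexp
  -- every term of index `k + 2` is divisible by `p ^ (2 n + 1)`
  have hterm : ∀ k ∈ range (p - 1), ∃ t : D,
      γ ^ (k + 2) * ((p.choose (k + 2) : ℕ) : D) = (p : D) ^ (2 * n + 1) * t := by
    intro k hk
    rw [mem_range] at hk
    rcases Nat.lt_or_ge (k + 2) p with hlt | hge
    · -- `p ∣ choose p (k+2)`
      obtain ⟨m, hm⟩ := hp.dvd_choose_self (by omega) hlt
      refine ⟨(p : D) ^ (n * (k + 2) - 2 * n) * e ^ (k + 2) * (m : D), ?_⟩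
      rw [hγpow, hm, Nat.cast_mul]
      have e1 : n * (k + 2) = 2 * n + (n * (k + 2) - 2 * n) := by
        have : 2 * n ≤ n * (k + 2) := by nlinarith
        omega
      conv_lhs => rw [e1, pow_add]
      calc (p : D) ^ (2 * n) * (p : D) ^ (n * (k + 2) - 2 * n) * e ^ (k + 2) * ((p : D) * (m : D))
          = (p : D) ^ (2 * n) * (((p : D) ^ (n * (k + 2) - 2 * n) * e ^ (k + 2)) * (p : D) ^ 1)
              * (m : D) := by rw [pow_one]; noncomm_ring
        _ = (p : D) ^ (2 * n) * ((p : D) ^ 1 * ((p : D) ^ (n * (k + 2) - 2 * n) * e ^ (k + 2)))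
              * (m : D) := by rw [hcomm]
        _ = (p : D) ^ (2 * n + 1) *
              ((p : D) ^ (n * (k + 2) - 2 * n) * e ^ (k + 2) * (m : D)) := by
            rw [pow_succ]; noncomm_ring
    · -- `k + 2 = p`
      have hk2 : k + 2 = p := by omega
      refine ⟨(p : D) ^ (n * p - (2 * n + 1)) * e ^ p, ?_⟩
      rw [hk2, Nat.choose_self, Nat.cast_one, mul_one, hγpow]
      have e1 : n * p = (2 * n + 1) + (n * p - (2 * n + 1)) := by
        have : 2 * n + 1 ≤ n * p := by nlinarith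
        omega
      conv_lhs => rw [e1, pow_add]
      rw [mul_assoc]
  choose! t ht using hterm
  refine ⟨- ∑ k ∈ range (p - 1), t k, ?_⟩
  have hsplit : ∑ m ∈ range (p + 1), γ ^ m * ((p.choose m : ℕ) : D) =
      (∑ k ∈ range (p - 1), γ ^ (k + 2) * ((p.choose (k + 2) : ℕ) : D)) + γ * (p : D) + 1 := by
    have e1 : p + 1 = (p - 1) + 1 + 1 := by omega
    rw [e1, sum_range_succ', sum_range_succ']
    simp
  rw [h, hsplit, sum_congr rfl ht, ← mul_sum] at hexp
  have h2 : γ * (p : D) = (p : D) * γ := (Nat.cast_commute p γ).eq.symm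
  rw [h2] at hexp
  have h3 : (p : D) * γ = - ((p : D) ^ (2 * n + 1) * ∑ k ∈ range (p - 1), t k) := by
    have h4 : (p : D) ^ (2 * n + 1) * ∑ k ∈ range (p - 1), t k + (p : D) * γ = 0 := by
      have h5 : ((p : D) ^ (2 * n + 1) * ∑ k ∈ range (p - 1), t k + (p : D) * γ) + 1 = 0 + 1 := by
        rw [zero_add]; exact hexp.symm
      exact add_right_cancel h5
    exact eq_neg_of_add_eq_zero_right h4
  rw [h3, mul_neg]

/-- **H1, `p`-adic form.**  In a ring `D` without `p`-torsion which is `p`-adically separated, for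
an odd prime `p`, an element `c` with `c ^ p = 1` and `c - 1 ∈ p D` is `1`. -/
theorem eq_one_of_pow_eq_one (p : ℕ) (hp : p.Prime) (hp2 : p ≠ 2)
    (htf : ∀ d : D, (p : D) * d = 0 → d = 0)
    (hsep : ∀ d : D, (∀ n : ℕ, ∃ e : D, d = (p : D) ^ n * e) → d = 0)
    (c : D) (hc : c ^ p = 1) (h1 : ∃ d : D, c - 1 = (p : D) * d) : c = 1 := by
  set γ : D := c - 1 with hγdef
  have hc' : (1 + γ) ^ p = 1 := by
    rw [hγdef, add_sub_cancel]; exact hc
  have key : ∀ n : ℕ, ∃ e : D, γ = (p : D) ^ (n + 1) * e := by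
    intro n
    induction n with
    | zero =>
      obtain ⟨d, hd⟩ := h1
      exact ⟨d, by rw [zero_add, pow_one]; exact hd⟩
    | succ n ih =>
      obtain ⟨e, he⟩ := ih
      obtain ⟨t, ht⟩ := exists_mul_eq_of_add_pow_eq_one p hp hp2 (n + 1) (by omega) γ e he hc'
      refine ⟨(p : D) ^ n * t, ?_⟩
      refine sub_eq_zero.mp (htf _ ?_)
      have e1 : 2 * (n + 1) + 1 = 1 + (n + 1 + 1) + n := by ring
      rw [mul_sub, sub_eq_zero, ht, e1, pow_add, pow_add, pow_one, mul_assoc, mul_assoc]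
  have hγ0 : γ = 0 := by
    apply hsep
    intro n
    rcases n with _ | n
    · exact ⟨γ, by simp⟩
    · exact key n
  rw [hγdef, sub_eq_zero] at hγ0
  exact hγ0

end Fermat.Agent.TW.CE46.H1
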